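import Fermat.Agent.S17.H230.PlacePoint
import Fermat.Agent.S17.H617.HWallDefs

/-!
# S17 / tower H (helper230): construction of `HWall.EmbData`

* `d1At v f` : the first order coefficient `((f - f(v)) / π)(v)` of a function regular at `v`
  (`π = unif v`), with `two_le_ord_iff` : `2 ≤ ord_v f ↔ f(v) = 0 ∧ d1At v f = 0`, and linearity;
* `tnD D x v` : the tangent vector at the point `ptD D x v`;
* `dot_tnD`, `tn_spec_ptD` : hyperplanes containing the tangent line are the sections vanishing
  to order `≥ 2`;
* `embOfBasis` : the `EmbData` of a basis `x` of `L(m∞)`, with `pt = ptD`, `tn = tnD`;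
* `exists_embData` : existence for every place `∞` and every `m ≥ 2g + 1`.
-/

set_option autoImplicit false

noncomputable section

open AlgebraicCurve

namespace Fermat.Agent.S17.H230

open Fermat.Agent.Lib.RR Fermat.Agent.S17.HWall

variable {K F : Type*} [Field K] [Field F] [Algebra K F] [FF1 K F] {ι : Type*}

/-! ### First order coefficient -/

/-- `(f - f(v)) / π` for a function `f`. -/
def quot1 (v : Place K F) (f : F) : F := (f - algebraMap K F (valAt v f)) * (unif v)⁻¹

/-- The first order coefficient of `f` at `v` with respect to the uniformizer `unif v`. -/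
def d1At (v : Place K F) (f : F) : K := valAt v (quot1 v f)

theorem regAt_quot1 {v : Place K F} {f : F} (hf : RegAt v f) : RegAt v (quot1 v f) := by
  unfold quot1
  set h := f - algebraMap K F (valAt v f) with hh
  have hreg : RegAt v h := by
    rw [hh, sub_eq_add_neg]
    exact hf.add (by simpa using (regAt_algebraMap v (-(valAt v f))))
  have hval : valAt v h = 0 := by
    have : h + algebraMap K F (valAt v f) = f := by rw [hh]; ring
    have h2 := valAt_add hreg (regAt_algebraMap v (valAt v f))
    rw [this, valAt_algebraMap] at h2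
    linear_combination -h2
  rcases (valAt_eq_zero_iff hreg).mp hval with h0 | h0
  · rw [h0, zero_mul]; exact regAt_zero v
  · have hne : h ≠ 0 := by
      intro h1
      rw [h1] at h0
      simp at h0
    rw [regAt_iff, v.ord_mul hne (inv_ne_zero (unif_ne_zero v)), v.ord_inv, ord_unif]
    omega

theorem quot1_smul_sum [Fintype ι] {v : Place K F} {f : ι → F} (hf : ∀ i, RegAt v (f i))
    (a : ι → K) : quot1 v (∑ i, a i • f i) = ∑ i, a i • quot1 v (f i) := by
  unfold quot1
  rw [valAt_sum _ (fun i _ ↦ RegAt.smul (a i) (hf i)), map_sum, ← Finset.sum_sub_distrib,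
    Finset.sum_mul]
  refine Finset.sum_congr rfl fun i _ ↦ ?_
  rw [valAt_smul _ (hf i), map_mul, Algebra.smul_def, Algebra.smul_def]
  ring

theorem d1At_smul_sum [Fintype ι] {v : Place K F} {f : ι → F} (hf : ∀ i, RegAt v (f i))
    (a : ι → K) : d1At v (∑ i, a i • f i) = ∑ i, a i * d1At v (f i) := by
  unfold d1At
  rw [quot1_smul_sum hf, valAt_sum _ (fun i _ ↦ RegAt.smul (a i) (regAt_quot1 (hf i)))]
  exact Finset.sum_congr rfl fun i _ ↦ valAt_smul _ (regAt_quot1 (hf i))

/-- **Order `≥ 2`** means: value and first order coefficient vanish. -/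
theorem two_le_ord_iff {v : Place K F} {f : F} (hf : RegAt v f) (hf0 : f ≠ 0) :
    2 ≤ v.ord f ↔ valAt v f = 0 ∧ d1At v f = 0 := by
  have hq : valAt v f = 0 → quot1 v f = f * (unif v)⁻¹ := by
    intro h
    unfold quot1
    rw [h, map_zero, sub_zero]
  have hne : f * (unif v)⁻¹ ≠ 0 := mul_ne_zero hf0 (inv_ne_zero (unif_ne_zero v))
  have hord : v.ord (f * (unif v)⁻¹) = v.ord f - 1 := by
    rw [v.ord_mul hf0 (inv_ne_zero (unif_ne_zero v)), v.ord_inv, ord_unif]
    ring
  constructor
  · intro h
    have h1 : valAt v f = 0 := (valAt_eq_zero_iff hf).mpr (Or.inr (by omega))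
    refine ⟨h1, ?_⟩
    unfold d1At
    rw [hq h1]
    have hreg : RegAt v (f * (unif v)⁻¹) := by rw [regAt_iff, hord]; omega
    rw [valAt_eq_zero_iff hreg]
    right
    rw [hord]
    omega
  · rintro ⟨h1, h2⟩
    have h3 : 0 < v.ord f := ((valAt_eq_zero_iff hf).mp h1).resolve_left hf0
    unfold d1At at h2
    rw [hq h1] at h2
    have hreg : RegAt v (f * (unif v)⁻¹) := by rw [regAt_iff, hord]; omega
    have h4 := ((valAt_eq_zero_iff hreg).mp h2).resolve_left hne
    rw [hord] at h4
    omega

/-! ### The tangent vector -/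

/-- The tangent vector at the point `ptD D x v`: first order coefficients of the normalised
coordinates `x i * π ^ (D v)`. -/
def tnD (D : Divisor K F) (x : ι → F) (v : Place K F) : ι → K :=
  fun i ↦ d1At v (x i * unif v ^ (D v))

theorem regAt_normD {D : Divisor K F} {x : ι → F} (hx : ∀ i, x i ∈ riemannRochSpace D)
    (v : Place K F) (i : ι) : RegAt v (x i * unif v ^ (D v)) := by
  have := regAt_normAt (ordGE_of_mem_L hx v) i
  rwa [neg_neg] at this

theorem dot_tnD [Fintype ι] {D : Divisor K F} {x : ι → F}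
    (hx : ∀ i, x i ∈ riemannRochSpace D) (v : Place K F) (a : ι → K) :
    ∑ i, a i * tnD D x v i = d1At v ((∑ i, a i • x i) * unif v ^ (D v)) := by
  unfold tnD
  rw [← d1At_smul_sum (regAt_normD hx v), Finset.sum_mul]
  congr 1
  exact Finset.sum_congr rfl fun i _ ↦ by rw [smul_mul_assoc]

/-- **Hyperplanes containing the tangent line at the point of `v`** are the sections vanishing
to order `≥ 2` at `v`. -/
theorem tn_spec_ptD [Fintype ι] {D : Divisor K F} {x : ι → F}
    (hx : ∀ i, x i ∈ riemannRochSpace D) (v : Place K F) (a : ι → K)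
    (h0 : (∑ i, a i • x i) ≠ 0) :
    (∑ i, a i * ptD D x v i = 0 ∧ ∑ i, a i * tnD D x v i = 0) ↔
      2 ≤ v.ord (∑ i, a i • x i) + D v := by
  rw [dot_ptD hx, dot_tnD hx]
  have hreg : RegAt v ((∑ i, a i • x i) * unif v ^ (D v)) := by
    rw [Finset.sum_mul]
    refine RegAt.sum _ fun i _ ↦ ?_
    rw [smul_mul_assoc]
    exact RegAt.smul _ (regAt_normD hx v i)
  have hne : (∑ i, a i • x i) * unif v ^ (D v) ≠ 0 :=
    mul_ne_zero h0 (zpow_ne_zero _ (unif_ne_zero v))
  rw [← two_le_ord_iff hreg hne, ord_mul_unif_zpow v h0]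

theorem pt_spec_ptD [Fintype ι] {D : Divisor K F} {x : ι → F}
    (hx : ∀ i, x i ∈ riemannRochSpace D) (v : Place K F) (a : ι → K)
    (h0 : (∑ i, a i • x i) ≠ 0) :
    ∑ i, a i * ptD D x v i = 0 ↔ 0 < v.ord (∑ i, a i • x i) + D v := by
  rw [ptD, dot_ptAt_eq_zero_iff (ordGE_of_mem_L hx v)]
  constructor
  · rintro (h | h)
    · exact absurd h h0
    · omega
  · intro h
    right
    omega

/-! ### The embedding datum of a basis of `L(m∞)` -/

omit [FF1 K F] in
theorem lin_ne_zero_of_li {n : ℕ} {x : Fin n → F} (hli : LinearIndependent K x)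
    {a : Fin n → K} (ha : a ≠ 0) : lin x a ≠ 0 := by
  intro h
  apply ha
  exact funext (Fintype.linearIndependent_iff.mp hli a h)

theorem hypDiv_apply_of_ne {n : ℕ} (vinf : Place K F) (m : ℕ) {x : Fin n → F} {a : Fin n → K}
    (h : lin x a ≠ 0) (P : Place K F) :
    hypDiv vinf m x a P = P.ord (lin x a) + (m • prim vinf : Divisor K F) P := by
  unfold hypDiv
  rw [dif_neg h, Finsupp.add_apply, divOf_apply]

/-- The embedding datum of a basis `x` of `L(m∞)`: `pt = ptD`, `tn = tnD`. -/
def embOfBasis (vinf : Place K F) (m : ℕ) (hm : 2 * genusR K F + 1 ≤ m) {r : ℕ}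
    (x : Fin (r + 1) → F) (x_li : LinearIndependent K x)
    (x_span : Submodule.span K (Set.range x) = riemannRochSpace (m • prim vinf)) :
    EmbData K F where
  vinf := vinf
  m := m
  r := r
  x := x
  pt := ptD (m • prim vinf) x
  tn := tnD (m • prim vinf) x
  hm := hm
  x_li := x_li
  x_span := x_span
  pt_spec := by
    intro P a ha
    have hx : ∀ i, x i ∈ riemannRochSpace (m • prim vinf) := fun i ↦ by
      rw [← x_span]; exact Submodule.subset_span ⟨i, rfl⟩
    have h0 : lin x a ≠ 0 := lin_ne_zero_of_li x_li ha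
    rw [hypDiv_apply_of_ne vinf m h0 P]
    exact pt_spec_ptD hx P a h0
  tn_spec := by
    intro P a ha
    have hx : ∀ i, x i ∈ riemannRochSpace (m • prim vinf) := fun i ↦ by
      rw [← x_span]; exact Submodule.subset_span ⟨i, rfl⟩
    have h0 : lin x a ≠ 0 := lin_ne_zero_of_li x_li ha
    rw [hypDiv_apply_of_ne vinf m h0 P]
    exact tn_spec_ptD hx P a h0

@[simp] theorem embOfBasis_pt (vinf : Place K F) (m : ℕ) (hm : 2 * genusR K F + 1 ≤ m) {r : ℕ}
    (x : Fin (r + 1) → F) (x_li : LinearIndependent K x)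
    (x_span : Submodule.span K (Set.range x) = riemannRochSpace (m • prim vinf)) :
    (embOfBasis vinf m hm x x_li x_span).pt = ptD (m • prim vinf) x := rfl

@[simp] theorem embOfBasis_tn (vinf : Place K F) (m : ℕ) (hm : 2 * genusR K F + 1 ≤ m) {r : ℕ}
    (x : Fin (r + 1) → F) (x_li : LinearIndependent K x)
    (x_span : Submodule.span K (Set.range x) = riemannRochSpace (m • prim vinf)) :
    (embOfBasis vinf m hm x x_li x_span).tn = tnD (m • prim vinf) x := rfl

/-- Existence of an embedding datum for every place and every degree `m ≥ 2g + 1`. -/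
theorem exists_embData (vinf : Place K F) (m : ℕ) (hm : 2 * genusR K F + 1 ≤ m) :
    ∃ E : EmbData K F, E.vinf = vinf ∧ E.m = m ∧ E.pt = ptD (m • prim vinf) E.x ∧
      E.tn = tnD (m • prim vinf) E.x := by
  classical
  set L := riemannRochSpace (K := K) (F := F) (m • prim vinf) with hL
  have hone : (1 : F) ∈ L := by
    rw [hL, mem_L_iff]
    intro w
    right
    rw [Place.ord_one]
    have : (0 : ℤ) ≤ (m • prim vinf : Divisor K F) w := by
      simp only [Finsupp.coe_smul, Pi.smul_apply, prim]
      by_cases hw : vinf = w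
      · subst hw; simp
      · simp [hw]
    omega
  have hpos : 0 < Module.finrank K L := by
    have : Nontrivial L := ⟨⟨⟨1, hone⟩, 0, fun h ↦ one_ne_zero (congrArg Subtype.val h)⟩⟩
    exact Module.finrank_pos
  obtain ⟨r, hr⟩ : ∃ r, Module.finrank K L = r + 1 := ⟨Module.finrank K L - 1, by omega⟩
  let b : Module.Basis (Fin (r + 1)) K L := (Module.finBasis K L).reindex (finCongr hr)
  let x : Fin (r + 1) → F := fun i ↦ (b i : F)
  have x_li : LinearIndependent K x := by
    have := b.linearIndependent.map' L.subtype (Submodule.ker_subtype L)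
    exact this
  have x_span : Submodule.span K (Set.range x) = L := by
    have h1 : Set.range x = L.subtype '' Set.range b := by
      rw [← Set.range_comp]; rfl
    rw [h1, Submodule.span_image, b.span_eq, Submodule.map_top, Submodule.range_subtype]
  exact ⟨embOfBasis vinf m hm x x_li x_span, rfl, rfl, rfl, rfl⟩

end Fermat.Agent.S17.H230
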