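import Fermat.Agent.S17.H230.Jet
import Fermat.Agent.S17.H710.Wall.Defs
import Fermat.Agent.Lib.RR.Duality
import Fermat.Agent.Lib.RR.Adeles

/-!
# S17 / tower H, wall leaves G-RANK and G-RANK-JET (helper230)

`rank E : Wall.RankStatement E` and `rankJet E : Wall.RankJetStatement E` (exact frozen shapes of
`S17/H710/Wall/Defs.lean`, no extra hypothesis).

Proof.  The rows of the stacked matrix are the images `Φ G` of the degree `k` forms
`G = β_s = secProd (pt ∘ A) s` and `G = w_ρ X^α`, where
`Φ G = ((G(y_j))_j, ψ G)`, `ψ = eval z` (RANK) or `ψ = jetP (pt P) (tn P)` (RANK-JET).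
`aeval E.x G ∈ L(km∞ - ΣAᵢ)` for these forms, and `Φ` kills the homogeneous relations of `E.x`
(`OnCone` for the columns; for the jet: `d1At` is a point derivation, `E.pt P ∈ span (ptD)`,
`E.tn P ∈ span (ptD, tnD)` by `pt_spec`/`tn_spec`, Euler's identity).  Hence the rank is at most
`dim L(km∞ - ΣAᵢ) = km - k + 1 - g` (Riemann–Roch, `deg > 2g - 2`).
-/

set_option autoImplicit false

noncomputable section

open AlgebraicCurve MvPolynomial

namespace Fermat.Agent.S17.H230

open Fermat.Agent.Lib.RR Fermat.Agent.S17.HWall Fermat.Agent.S17.H710 Fermat.Agent.S17.Wall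

variable {K F : Type*} [Field K] [Field F] [Algebra K F]

/-! ### Linear algebra -/

/-- If `g` kills the kernel of `f` on `S` and `f` maps `S` into the finite dimensional `L`, then
any family of vectors `g G`, `G ∈ S`, spans a space of dimension `≤ dim L`. -/
theorem finrank_span_rows_le {V W U : Type*} [AddCommGroup V] [Module K V] [AddCommGroup W]
    [Module K W] [AddCommGroup U] [Module K U] [Module.Finite K U]
    (S : Submodule K V) (f : V →ₗ[K] W) (g : V →ₗ[K] U) (L : Submodule K W) [Module.Finite K L]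
    (hf : ∀ G ∈ S, f G ∈ L) (hker : ∀ G ∈ S, f G = 0 → g G = 0)
    {σ : Type*} (rows : σ → U) (hrows : ∀ s, ∃ G ∈ S, g G = rows s) :
    Module.finrank K (Submodule.span K (Set.range rows)) ≤ Module.finrank K L := by
  set f' : S →ₗ[K] W := f.domRestrict S with hf'
  set g' : S →ₗ[K] U := g.domRestrict S with hg'
  have hle : LinearMap.ker f' ≤ LinearMap.ker g' := by
    intro G hG
    rw [LinearMap.mem_ker] at hG ⊢
    exact hker G.1 G.2 hG
  have hrf : LinearMap.range f' ≤ L := by
    rintro _ ⟨G, rfl⟩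
    exact hf G.1 G.2
  have : Module.Finite K (LinearMap.range f') :=
    Submodule.finiteDimensional_of_le hrf
  have : Module.Finite K (S ⧸ LinearMap.ker f') :=
    Module.Finite.equiv f'.quotKerEquivRange.symm
  have h1 : Submodule.span K (Set.range rows) ≤ LinearMap.range g' := by
    rw [Submodule.span_le]
    rintro _ ⟨s, rfl⟩
    obtain ⟨G, hG, hGs⟩ := hrows s
    exact ⟨⟨G, hG⟩, hGs⟩
  have h2 : LinearMap.range g' = LinearMap.range ((LinearMap.ker f').liftQ g' hle) :=
    (Submodule.range_liftQ _ g' hle).symm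
  calc Module.finrank K (Submodule.span K (Set.range rows))
      ≤ Module.finrank K (LinearMap.range g') := Submodule.finrank_mono h1
    _ = Module.finrank K (LinearMap.range ((LinearMap.ker f').liftQ g' hle)) := by rw [← h2]
    _ ≤ Module.finrank K (S ⧸ LinearMap.ker f') := LinearMap.finrank_range_le _
    _ = Module.finrank K (LinearMap.range f') := LinearEquiv.finrank_eq f'.quotKerEquivRange
    _ ≤ Module.finrank K L := Submodule.finrank_mono hrf

variable [FF1 K F]

/-! ### Products in the spaces `L(D)` -/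

omit [FF1 K F] in
theorem one_mem_L_zero : (1 : F) ∈ riemannRochSpace (0 : Divisor K F) := by
  rw [mem_L_iff]
  intro v
  right
  rw [Place.ord_one]
  simp

omit [FF1 K F] in
theorem mul_mem_L_add {D D' : Divisor K F} {f g : F} (hf : f ∈ riemannRochSpace D)
    (hg : g ∈ riemannRochSpace D') : f * g ∈ riemannRochSpace (D + D') := by
  rw [mem_L_iff] at hf hg ⊢
  intro v
  rcases eq_or_ne f 0 with rfl | hf0
  · left; simp
  rcases eq_or_ne g 0 with rfl | hg0
  · left; simp
  right
  rw [v.ord_mul hf0 hg0, Finsupp.add_apply]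
  have := (hf v).resolve_left hf0
  have := (hg v).resolve_left hg0
  omega

omit [FF1 K F] in
theorem prod_mem_L_sum {κ : Type*} (s : Finset κ) (f : κ → F) (D : κ → Divisor K F)
    (h : ∀ i ∈ s, f i ∈ riemannRochSpace (D i)) :
    ∏ i ∈ s, f i ∈ riemannRochSpace (∑ i ∈ s, D i) := by
  classical
  induction s using Finset.induction_on with
  | empty => simpa using one_mem_L_zero (K := K) (F := F)
  | insert a s ha ih =>
    rw [Finset.prod_insert ha, Finset.sum_insert ha]
    exact mul_mem_L_add (h a (Finset.mem_insert_self a s))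
      (ih fun i hi ↦ h i (Finset.mem_insert_of_mem hi))

/-! ### The embedding datum versus the canonical points -/

theorem x_mem (E : EmbData K F) (i : Fin (E.r + 1)) :
    E.x i ∈ riemannRochSpace (E.m • prim E.vinf) := by
  rw [← E.x_span]
  exact Submodule.subset_span ⟨i, rfl⟩

theorem dot_eq_sum {n : ℕ} (a y : Fin n → K) : dot a y = ∑ i, a i * y i := rfl

omit [FF1 K F] in
theorem lin_eq_sum {n : ℕ} (x : Fin n → F) (a : Fin n → K) : lin x a = ∑ i, a i • x i := rfl

/-- `E.pt P` is proportional to the canonical point. -/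
theorem exists_pt_eq (E : EmbData K F) (P : Place K F) :
    ∃ l : K, E.pt P = l • ptD (E.m • prim E.vinf) E.x P := by
  have h := mem_span_of_forall_dot (fun _ : Unit ↦ ptD (E.m • prim E.vinf) E.x P) (E.pt P) ?_
  · rw [Set.range_const, Submodule.mem_span_singleton] at h
    obtain ⟨l, hl⟩ := h
    exact ⟨l, hl.symm⟩
  · intro a ha
    rcases eq_or_ne a 0 with rfl | ha0
    · simp [dot]
    have h0 : lin E.x a ≠ 0 := E.lin_ne_zero ha0
    rw [E.pt_spec P a ha0, hypDiv_apply_of_ne E.vinf E.m h0 P]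
    exact (pt_spec_ptD (x_mem E) P a h0).mp (ha ())

/-- `E.tn P` lies in the span of the canonical tangent vector and the canonical point. -/
theorem exists_tn_eq (E : EmbData K F) (P : Place K F) :
    ∃ μ ν : K, E.tn P = μ • tnD (E.m • prim E.vinf) E.x P + ν • ptD (E.m • prim E.vinf) E.x P := by
  have h := mem_span_of_forall_dot
    (fun b : Bool ↦ if b then tnD (E.m • prim E.vinf) E.x P else ptD (E.m • prim E.vinf) E.x P)
    (E.tn P) ?_
  · have hr : Set.range (fun b : Bool ↦ if b then tnD (E.m • prim E.vinf) E.x P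
        else ptD (E.m • prim E.vinf) E.x P) =
        {tnD (E.m • prim E.vinf) E.x P, ptD (E.m • prim E.vinf) E.x P} := by
      ext u
      simp only [Set.mem_range, Bool.exists_bool, Set.mem_insert_iff, Set.mem_singleton_iff]
      constructor
      · rintro (h | h)
        · right; simpa using h.symm
        · left; simpa using h.symm
      · rintro (h | h)
        · right; simpa using h.symm
        · left; simpa using h.symm
    rw [hr, Submodule.mem_span_pair] at h
    obtain ⟨μ, ν, hμν⟩ := h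
    exact ⟨μ, ν, hμν.symm⟩
  · intro a ha
    rcases eq_or_ne a 0 with rfl | ha0
    · simp [dot]
    have h0 : lin E.x a ≠ 0 := E.lin_ne_zero ha0
    have h1 : dot a (ptD (E.m • prim E.vinf) E.x P) = 0 := by simpa using ha false
    have h2 : dot a (tnD (E.m • prim E.vinf) E.x P) = 0 := by simpa using ha true
    have h3 := (tn_spec_ptD (x_mem E) P a h0).mp ⟨h1, h2⟩
    have h4 := (E.tn_spec P a ha0).mpr (by rw [hypDiv_apply_of_ne E.vinf E.m h0 P]; exact h3)
    exact h4.2

/-- The jet `(E.pt P, E.tn P)` kills the homogeneous relations of `E.x`. -/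
theorem jetP_pt_tn_eq_zero (E : EmbData K F) (P : Place K F) {k : ℕ}
    {G : MvPolynomial (Fin (E.r + 1)) K} (hG : G.IsHomogeneous k) (h0 : aeval E.x G = 0) :
    jetP (E.pt P) (E.tn P) G = 0 := by
  obtain ⟨l, hl⟩ := exists_pt_eq E P
  obtain ⟨μ, ν, hμν⟩ := exists_tn_eq E P
  obtain ⟨h1, h2⟩ := jet_ptD_eq_zero (x_mem E) P hG h0
  rw [hl, hμν]
  exact jetP_eq_zero_of_span hG h1 h2 l μ ν

/-! ### The rows are values of elements of `L(km∞ - ΣAᵢ)` -/

/-- a linear form through `E.pt A` gives a section vanishing at `A` -/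
theorem lin_mem_of_dot_eq_zero (E : EmbData K F) (A : Place K F) (a : Fin (E.r + 1) → K)
    (h : dot a (E.pt A) = 0) :
    lin E.x a ∈ riemannRochSpace (E.m • prim E.vinf - prim A) := by
  rcases eq_or_ne a 0 with rfl | ha0
  · simp [lin]
  have h0 : lin E.x a ≠ 0 := E.lin_ne_zero ha0
  have h1 := (E.pt_spec A a ha0).mp h
  rw [hypDiv_apply_of_ne E.vinf E.m h0 A] at h1
  rw [mem_L_sub_prim_iff (E.lin_mem a)]
  right
  omega

omit [FF1 K F] in
theorem aeval_secForm {n : ℕ} (x : Fin n → F) (u : Fin n → K) (p : Fin n × Fin n) :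
    aeval x (secForm u p) =
      lin x (fun i ↦ u p.1 * (if i = p.2 then 1 else 0) - u p.2 * (if i = p.1 then 1 else 0)) := by
  classical
  unfold secForm lin
  simp only [sub_smul, Finset.sum_sub_distrib, mul_ite, mul_one, mul_zero, ite_smul, zero_smul,
    Finset.sum_ite_eq', Finset.mem_univ, if_true]
  simp only [map_sub, map_mul, aeval_C, aeval_X, Algebra.smul_def]

theorem aeval_secForm_mem (E : EmbData K F) (A : Place K F) (p : Fin (E.r + 1) × Fin (E.r + 1)) :
    aeval E.x (secForm (E.pt A) p) ∈ riemannRochSpace (E.m • prim E.vinf - prim A) := by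
  rw [aeval_secForm]
  apply lin_mem_of_dot_eq_zero
  simp only [dot, dotProduct, sub_mul, Finset.sum_sub_distrib, mul_ite, mul_one, mul_zero,
    ite_mul, zero_mul, Finset.sum_ite_eq', Finset.mem_univ, if_true]
  ring

theorem aeval_secProd_mem (E : EmbData K F) {k : ℕ} (A : Fin k → Place K F)
    (s : Fin k → Fin (E.r + 1) × Fin (E.r + 1)) :
    aeval E.x (secProd (fun i ↦ E.pt (A i)) s) ∈
      riemannRochSpace (k • (E.m • prim E.vinf) - ∑ l, prim (A l)) := by
  unfold secProd
  rw [map_prod]
  have := prod_mem_L_sum (Finset.univ : Finset (Fin k))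
    (fun i ↦ aeval E.x (secForm (E.pt (A i)) (s i)))
    (fun i ↦ E.m • prim E.vinf - prim (A i)) (fun i _ ↦ aeval_secForm_mem E (A i) (s i))
  rwa [Finset.sum_sub_distrib, Finset.sum_const, Finset.card_univ, Fintype.card_fin] at this

omit [FF1 K F] in
theorem aeval_linForm {n : ℕ} (x : Fin n → F) (a : Fin n → K) :
    aeval x (linForm a) = lin x a := by
  unfold linForm lin
  simp only [map_sum, map_mul, aeval_C, aeval_X, Algebra.smul_def]

theorem aeval_monoOrd_mem (E : EmbData K F) {e : ℕ} (α : Fin e → Fin (E.r + 1)) :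
    aeval E.x (monoOrd (K := K) α) ∈ riemannRochSpace (e • (E.m • prim E.vinf)) := by
  unfold monoOrd
  rw [map_prod]
  have := prod_mem_L_sum (Finset.univ : Finset (Fin e))
    (fun i ↦ aeval E.x (X (α i) : MvPolynomial (Fin (E.r + 1)) K))
    (fun _ ↦ E.m • prim E.vinf) (fun i _ ↦ by rw [aeval_X]; exact x_mem E (α i))
  rwa [Finset.sum_const, Finset.card_univ, Fintype.card_fin] at this

theorem lin_mem_of_le (E : EmbData K F) (D : Divisor K F) (a : Fin (E.r + 1) → K)
    (h : a ≠ 0 → D ≤ E.Z a) : lin E.x a ∈ riemannRochSpace (E.m • prim E.vinf - D) := by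
  rcases eq_or_ne a 0 with rfl | ha0
  · simp [lin]
  rw [mem_L_iff]
  intro v
  right
  have h1 := Finsupp.le_def.mp (h ha0) v
  rw [E.Z_apply ha0 v] at h1
  rw [Finsupp.sub_apply]
  omega

theorem aeval_wRow_mem (E : EmbData K F) {k : ℕ} (hk : 1 ≤ k) (D : Divisor K F)
    (a : Fin (E.r + 1) → K) (h : a ≠ 0 → D ≤ E.Z a) (α : Fin (k - 1) → Fin (E.r + 1)) :
    aeval E.x (linForm a * monoOrd α) ∈ riemannRochSpace (k • (E.m • prim E.vinf) - D) := by
  rw [map_mul, aeval_linForm]
  have := mul_mem_L_add (lin_mem_of_le E D a h) (aeval_monoOrd_mem E α)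
  have hD : E.m • prim E.vinf - D + (k - 1) • (E.m • prim E.vinf) =
      k • (E.m • prim E.vinf) - D := by
    obtain ⟨j, rfl⟩ : ∃ j, k = j + 1 := ⟨k - 1, by omega⟩
    rw [Nat.add_sub_cancel, add_smul, one_smul]
    abel
  rwa [hD] at this

/-! ### The dimension -/

theorem ell_rank_eq (E : EmbData K F) {k : ℕ} (hk : 1 ≤ k) (A : Fin k → Place K F) :
    Module.finrank K (riemannRochSpace (k • (E.m • prim E.vinf) - ∑ l, prim (A l))) =
      kapN E k := by
  have hdeg : Divisor.degree (k • (E.m • prim E.vinf) - ∑ l, prim (A l)) =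
      (k : ℤ) * E.m - k := by
    rw [map_sub, map_nsmul, map_nsmul, map_sum]
    simp only [degree_prim', Finset.sum_const, Finset.card_univ, Fintype.card_fin,
      nsmul_eq_mul, mul_one]
  have hm := E.hm
  have hkm : k * (2 * genusR K F + 1) ≤ k * E.m := Nat.mul_le_mul_left k hm
  have hkg : 2 * genusR K F + 1 ≤ k * (2 * genusR K F + 1) := Nat.le_mul_of_pos_left _ hk
  have hell := ell_eq_of_degree_gt (K := K) (F := F)
    (D := k • (E.m • prim E.vinf) - ∑ l, prim (A l)) (by
      rw [hdeg, genusFF_eq_genusR]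
      have : ((k * (2 * genusR K F + 1) : ℕ) : ℤ) ≤ ((k * E.m : ℕ) : ℤ) := by exact_mod_cast hkm
      push_cast at this
      have h2 : ((2 * genusR K F + 1 : ℕ) : ℤ) ≤ ((k * (2 * genusR K F + 1) : ℕ) : ℤ) := by
        exact_mod_cast hkg
      push_cast at h2
      nlinarith)
  rw [hdeg, genusFF_eq_genusR] at hell
  unfold ell at hell
  unfold kapN
  have h3 : k ≤ k * E.m := by nlinarith
  zify [h3]
  have h4 : genusR K F ≤ k * E.m - k + 1 := by
    have : k * (2 * genusR K F + 1) = 2 * (k * genusR K F) + k := by ring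
    have h5 : genusR K F ≤ k * genusR K F := Nat.le_mul_of_pos_left _ hk
    omega
  rw [Nat.cast_sub h4]
  push_cast [h3]
  rw [hell]

/-! ### The evaluation map `Φ` -/

/-- the jet as a linear map -/
def jetL {n : ℕ} (z z' : Fin n → K) : MvPolynomial (Fin n) K →ₗ[K] K where
  toFun := jetP z z'
  map_add' := jetP_add z z'
  map_smul' a G := by simpa using jetP_smul z z' a G

/-- `Φ G = ((G(y_j))_j, ψ G)` -/
def rowMap {n : ℕ} {c : Type*} (y : c → Fin n → K) (ψ : MvPolynomial (Fin n) K →ₗ[K] K) :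
    MvPolynomial (Fin n) K →ₗ[K] (c ⊕ Unit → K) where
  toFun G := Sum.elim (fun j ↦ eval (y j) G) (fun _ ↦ ψ G)
  map_add' G H := by
    funext q
    rcases q with j | j <;> simp
  map_smul' a G := by
    funext q
    rcases q with j | j <;> simp [smul_eval]

omit [FF1 K F] [Algebra K F] [Field F] in
theorem jetP_secForm {n : ℕ} (z z' u : Fin n → K) (p : Fin n × Fin n) :
    jetP z z' (secForm u p) = wedge u z' p := by
  classical
  unfold secForm wedge
  rw [jetP_sub, jetP_mul, jetP_mul, jetP_C, jetP_C, jetP_X, jetP_X, eval_C, eval_C]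
  ring

omit [FF1 K F] [Algebra K F] [Field F] in
theorem jetP_secProd {n d : ℕ} (z z' : Fin n → K) (u : Fin d → Fin n → K)
    (s : Fin d → Fin n × Fin n) : jetP z z' (secProd u s) = betaJet u z z' s := by
  classical
  unfold secProd betaJet
  rw [jetP_prod]
  refine Finset.sum_congr rfl fun l _ ↦ ?_
  rw [jetP_secForm]
  congr 1
  exact Finset.prod_congr rfl fun i _ ↦ eval_secForm (u i) z (s i)

omit [FF1 K F] [Algebra K F] [Field F] in
theorem jetP_linForm {n : ℕ} (z z' a : Fin n → K) : jetP z z' (linForm a) = dot a z' := by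
  classical
  unfold linForm
  rw [jetP_sum]
  simp only [jetP_mul, jetP_C, jetP_X, eval_C, eval_X, mul_zero, add_zero, dot, dotProduct]

omit [FF1 K F] [Algebra K F] [Field F] in
theorem jetP_monoOrd {n e : ℕ} (z z' : Fin n → K) (α : Fin e → Fin n) :
    jetP z z' (monoOrd α) = ∑ l, z' (α l) * ∏ k ∈ Finset.univ.erase l, z (α k) := by
  classical
  unfold monoOrd
  rw [jetP_prod]
  refine Finset.sum_congr rfl fun l _ ↦ ?_
  rw [jetP_X]
  congr 1
  exact Finset.prod_congr rfl fun i _ ↦ eval_X _

omit [FF1 K F] [Algebra K F] [Field F] in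
theorem jetP_wRow {n e : ℕ} (z z' a : Fin n → K) (α : Fin e → Fin n) :
    jetP z z' (linForm a * monoOrd α) =
      dot a z' * ∏ k, z (α k) +
        dot a z * ∑ l, z' (α l) * ∏ k ∈ Finset.univ.erase l, z (α k) := by
  rw [jetP_mul, jetP_linForm, jetP_monoOrd, eval_linForm, eval_monoOrd]
  ring

/-! ### The core -/

/-- Common core of G-RANK and G-RANK-JET: `ψ` is any linear functional killing the homogeneous
relations of `E.x`. -/
theorem rank_core (E : EmbData K F) {k : ℕ} (hk : 1 ≤ k) (A : Fin k → Place K F) {ρ : Type}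
    (W : ρ → Fin (E.r + 1) → K) (hW : ∀ r, W r ≠ 0 → ∑ l, prim (A l) ≤ E.Z (W r))
    {c : Type} [Fintype c] (y : c → Fin (E.r + 1) → K) (hy : ∀ j, OnCone E.x (y j))
    (ψ : MvPolynomial (Fin (E.r + 1)) K →ₗ[K] K)
    (hψ : ∀ G : MvPolynomial (Fin (E.r + 1)) K, G.IsHomogeneous k → aeval E.x G = 0 → ψ G = 0) :
    Module.finrank K (Submodule.span K (Set.range
      (stack (betaMat (fun i ↦ E.pt (A i)) y) (fun s ↦ ψ (secProd (fun i ↦ E.pt (A i)) s))
        (wMat (e := k - 1) W y) (fun t ↦ ψ (linForm (W t.1) * monoOrd t.2))))) ≤ kapN E k := by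
  rw [← ell_rank_eq E hk A]
  refine finrank_span_rows_le
    (homogeneousSubmodule (Fin (E.r + 1)) K k ⊓
      (riemannRochSpace (k • (E.m • prim E.vinf) - ∑ l, prim (A l))).comap
        (aeval E.x).toLinearMap)
    (aeval E.x).toLinearMap (rowMap y ψ) _ ?_ ?_ _ ?_
  · intro G hG
    exact hG.2
  · intro G hG h0
    have hG' : G.IsHomogeneous k := (mem_homogeneousSubmodule _ _).mp hG.1
    funext q
    rcases q with j | j
    · exact hy j k G hG' h0
    · exact hψ G hG' h0
  · rintro (s | t)
    · refine ⟨secProd (fun i ↦ E.pt (A i)) s, ⟨?_, ?_⟩, ?_⟩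
      · exact (mem_homogeneousSubmodule _ _).mpr (secProd_isHomogeneous _ s)
      · exact aeval_secProd_mem E A s
      · funext q
        rcases q with j | j
        · simp [rowMap, stack, betaMat_eq_eval]
        · simp [rowMap, stack]
    · refine ⟨linForm (W t.1) * monoOrd t.2, ⟨?_, ?_⟩, ?_⟩
      · have := (linForm_isHomogeneous (W t.1)).mul (monoOrd_isHomogeneous (K := K) t.2)
        have hk' : 1 + (k - 1) = k := by omega
        rw [hk'] at this
        exact (mem_homogeneousSubmodule _ _).mpr this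
      · exact aeval_wRow_mem E hk _ (W t.1) (hW t.1) t.2
      · funext q
        rcases q with j | j
        · simp [rowMap, stack, wMat_eq_eval]
        · simp [rowMap, stack]

/-- **G-RANK.** -/
theorem rank (E : EmbData K F) : RankStatement E := by
  intro k A ρ _ W hk hW c _ y z hy hz
  have h := rank_core E hk A W hW y hy (aeval z).toLinearMap
    (fun G hG h0 ↦ by simpa [aeval_eq_eval] using hz k G hG h0)
  have h1 : (fun s ↦ (aeval z).toLinearMap (secProd (fun i ↦ E.pt (A i)) s)) =
      betaCol (fun i ↦ E.pt (A i)) fun _ ↦ z := by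
    funext s
    simp [betaCol, aeval_eq_eval, eval_secProd]
  have h2 : (fun t : ρ × (Fin (k - 1) → Fin (E.r + 1)) ↦
      (aeval z).toLinearMap (linForm (W t.1) * monoOrd t.2)) = wCol W z := by
    funext t
    simp [wCol, aeval_eq_eval, eval_linForm, eval_monoOrd]
  rwa [h1, h2] at h

/-- **G-RANK-JET.** -/
theorem rankJet (E : EmbData K F) : RankJetStatement E := by
  intro k A ρ _ W hk hW c _ y P hy
  have h := rank_core E hk A W hW y hy (jetL (E.pt P) (E.tn P))
    (fun G hG h0 ↦ jetP_pt_tn_eq_zero E P hG h0)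
  have h1 : (fun s ↦ jetL (E.pt P) (E.tn P) (secProd (fun i ↦ E.pt (A i)) s)) =
      betaJet (fun i ↦ E.pt (A i)) (E.pt P) (E.tn P) := by
    funext s
    exact jetP_secProd _ _ _ s
  have h2 : (fun t : ρ × (Fin (k - 1) → Fin (E.r + 1)) ↦
      jetL (E.pt P) (E.tn P) (linForm (W t.1) * monoOrd t.2)) = wJet W (E.pt P) (E.tn P) := by
    funext t
    exact jetP_wRow _ _ _ t.2
  rwa [h1, h2] at h

end Fermat.Agent.S17.H230
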