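import Fermat.Agent.S17.H230.GaussGelfondProd
import Fermat.Agent.S17.H380.AbsBasic

/-!
# S17 / tower H (helper230): Gauss–Gelfond for ABSOLUTE heights

Lift of `abs_polyLogHeight_mul_sub_le` and of the product-of-linear-forms bound to the absolute
logarithmic height `Fermat.Agent.S17.H380.absLogHeight` on tuples over a field of characteristic
zero (e.g. `ℚ̄`): for polynomials with algebraic coefficients,
`|h(f * g) - (h(f) + h(g))| ≤ log (gelfondConst (B ^ n))`, and for vectors `x_1, …, x_N`,
`|h(∏ ⟨x_i, T⟩) - ∑ h(x_i)| ≤ N * log (gelfondConst ((N + 1) ^ n))`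
(the height of the Chow form of a zero-cycle is the sum of the heights of its points, up to
a constant depending only on the degree).
-/

namespace Fermat.Agent.S17.H230

open Height MvPolynomial Module IntermediateField
open Fermat.Agent.S17.H380

variable {A : Type*} [Field A] [CharZero A] {n : ℕ}

/-- The absolute height does not change under re-indexing. -/
lemma absLogHeight_comp_equiv {ι ι' : Type*} [Finite ι] [Finite ι'] (e : ι ≃ ι')
    (x : ι' → A) : absLogHeight (x ∘ e) = absLogHeight x := by
  by_cases hx : ∀ i, IsIntegral ℚ (x i)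
  · have := tupleField_numberField x hx
    have h1 := absLogHeight_eq (algebraMap (tupleField x) A) (tupleLift x ∘ e)
    have h2 := absLogHeight_eq (algebraMap (tupleField x) A) (tupleLift x)
    rw [logHeight_comp_equiv] at h1
    rw [← h2] at h1
    exact h1
  · rw [absLogHeight_of_not_isIntegral x hx, absLogHeight_of_not_isIntegral]
    intro h
    exact hx fun i ↦ by simpa using h (e.symm i)

/-- Absolute logarithmic height of a polynomial := absolute height of its coefficient vector. -/
noncomputable def absPolyLogHeight (f : MvPolynomial (Fin n) A) : ℝ :=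
  absLogHeight (coeffTuple f)

lemma absPolyLogHeight_nonneg (f : MvPolynomial (Fin n) A) : 0 ≤ absPolyLogHeight f :=
  absLogHeight_nonneg _

/-- The absolute height of a polynomial defined over a number field `F`. -/
lemma absPolyLogHeight_map {F : Type*} [Field F] [NumberField F] (σ : F →+* A)
    (f₀ : MvPolynomial (Fin n) F) :
    absPolyLogHeight (map σ f₀) = (finrank ℚ F : ℝ)⁻¹ * polyLogHeight f₀ := by
  have hs : (map σ f₀).support = f₀.support := support_map_of_injective f₀ σ.injective
  let e : (map σ f₀).support ≃ f₀.support := Equiv.subtypeEquivRight fun m ↦ by rw [hs]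
  have h1 : coeffTuple (map σ f₀) = (fun i : f₀.support ↦ σ (coeffTuple f₀ i)) ∘ e := by
    funext m
    simp [coeffTuple, e, coeff_map]
  rw [absPolyLogHeight, h1, absLogHeight_comp_equiv, absLogHeight_eq]
  rfl

/-- All coefficients are algebraic numbers. -/
def AlgCoeffs (f : MvPolynomial (Fin n) A) : Prop := ∀ m, IsIntegral ℚ (f.coeff m)

lemma algCoeffs_of_isAlgebraic [Algebra.IsAlgebraic ℚ A] (f : MvPolynomial (Fin n) A) :
    AlgCoeffs f := fun _ ↦ (Algebra.IsAlgebraic.isAlgebraic _).isIntegral

/-- Finitely many polynomials with algebraic coefficients are defined over a number field. -/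
lemma exists_numberField_descent {ι : Type*} [Finite ι] (f : ι → MvPolynomial (Fin n) A)
    (hf : ∀ i, AlgCoeffs (f i)) :
    ∃ (F : IntermediateField ℚ A) (_ : NumberField F) (f₀ : ι → MvPolynomial (Fin n) F),
      ∀ i, map (algebraMap F A) (f₀ i) = f i := by
  classical
  let u : (Σ i, (f i).support) → A := fun p ↦ (f p.1).coeff p.2
  have hu : ∀ p, IsIntegral ℚ (u p) := fun p ↦ hf p.1 p.2
  have := tupleField_numberField u hu
  have hmem : ∀ i, f i ∈ Set.range (map (algebraMap (tupleField u) A)) := by
    intro i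
    rw [mem_range_map_iff_coeffs_subset]
    intro c hc
    obtain ⟨m, hm, rfl⟩ := mem_coeffs_iff.mp hc
    have : (f i).coeff m ∈ tupleField u := subset_adjoin ℚ _ ⟨⟨i, ⟨m, hm⟩⟩, rfl⟩
    exact ⟨⟨_, this⟩, rfl⟩
  choose f₀ hf₀ using hmem
  exact ⟨tupleField u, inferInstance, f₀, hf₀⟩

/-- **Gauss–Gelfond for absolute heights.** -/
theorem abs_absPolyLogHeight_mul_sub_le {B : ℕ} {f g : MvPolynomial (Fin n) A}
    (hfa : AlgCoeffs f) (hga : AlgCoeffs g)
    (hB : ∀ i, f.degreeOf i + g.degreeOf i < B) (hf : f ≠ 0) (hg : g ≠ 0) :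
    |absPolyLogHeight (f * g) - (absPolyLogHeight f + absPolyLogHeight g)| ≤
      Real.log (gelfondConst (B ^ n)) := by
  obtain ⟨F, _, p, hp⟩ := exists_numberField_descent (fun b : Bool ↦ if b then f else g)
    (fun b ↦ by cases b <;> simpa)
  have hpf : map (algebraMap F A) (p true) = f := by simpa using hp true
  have hpg : map (algebraMap F A) (p false) = g := by simpa using hp false
  have hinj : Function.Injective (algebraMap F A) := (algebraMap F A).injective
  have hf0 : p true ≠ 0 := fun h ↦ hf (by rw [← hpf, h, map_zero])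
  have hg0 : p false ≠ 0 := fun h ↦ hg (by rw [← hpg, h, map_zero])
  have hdeg : ∀ (q : MvPolynomial (Fin n) F) (i : Fin n),
      (map (algebraMap F A) q).degreeOf i = q.degreeOf i := by
    intro q i
    rw [degreeOf, degreeOf, degrees_map_of_injective q hinj]
  have hB' : ∀ i, (p true).degreeOf i + (p false).degreeOf i < B := by
    intro i
    rw [← hdeg, ← hdeg, hpf, hpg]
    exact hB i
  have key := abs_polyLogHeight_mul_sub_le hB' hf0 hg0
  have e1 := absPolyLogHeight_map (algebraMap F A) (p true)
  have e2 := absPolyLogHeight_map (algebraMap F A) (p false)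
  have e3 := absPolyLogHeight_map (algebraMap F A) (p true * p false)
  rw [map_mul, hpf, hpg] at e3
  rw [hpf] at e1
  rw [hpg] at e2
  rw [e1, e2, e3]
  have hd : (0 : ℝ) < finrank ℚ F := by exact_mod_cast Module.finrank_pos
  rw [← mul_add, ← mul_sub, abs_mul, abs_of_pos (inv_pos.mpr hd)]
  rw [inv_mul_le_iff₀ hd]
  exact key

/-- **Absolute height of a product of linear forms** (Chow form of a zero-cycle). -/
theorem abs_absPolyLogHeight_prod_linForm_sub_le {N : ℕ} (x : Fin N → Fin n → A)
    (hx : ∀ i, x i ≠ 0) (hxa : ∀ i j, IsIntegral ℚ (x i j)) :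
    |absPolyLogHeight (∏ i, linForm (x i)) - ∑ i, absLogHeight (x i)| ≤
      N * Real.log (gelfondConst ((N + 1) ^ n)) := by
  classical
  -- a number field containing all coordinates
  let u : Fin N × Fin n → A := fun p ↦ x p.1 p.2
  have hu : ∀ p, IsIntegral ℚ (u p) := fun p ↦ hxa p.1 p.2
  have := tupleField_numberField u hu
  set F := tupleField u with hF
  let x₀ : Fin N → Fin n → F := fun i j ↦ ⟨x i j, subset_adjoin ℚ _ ⟨(i, j), rfl⟩⟩
  have hx₀ : ∀ i, x₀ i ≠ 0 := by
    intro i h
    apply hx i
    funext j
    have := congrFun h j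
    exact congrArg Subtype.val this
  have hlin : ∀ i, map (algebraMap F A) (linForm (x₀ i)) = linForm (x i) := by
    intro i
    simp only [linForm, map_sum, map_mul, map_C, map_X]
    rfl
  have key := abs_polyLogHeight_prod_linForm_sub_le x₀ hx₀
  have e1 := absPolyLogHeight_map (algebraMap F A) (∏ i, linForm (x₀ i))
  rw [map_prod] at e1
  simp only [hlin] at e1
  have e2 : ∀ i, absLogHeight (x i) = (finrank ℚ F : ℝ)⁻¹ * logHeight (x₀ i) := fun i ↦
    absLogHeight_eq (algebraMap F A) (x₀ i)
  rw [e1]
  simp only [e2]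
  have hd : (0 : ℝ) < finrank ℚ F := by exact_mod_cast Module.finrank_pos
  rw [← Finset.mul_sum, ← mul_sub, abs_mul, abs_of_pos (inv_pos.mpr hd), inv_mul_le_iff₀ hd]
  calc |polyLogHeight (∏ i, linForm (x₀ i)) - ∑ i, logHeight (x₀ i)|
      ≤ N * (finrank ℚ F * Real.log (gelfondConst ((N + 1) ^ n))) := key
    _ = finrank ℚ F * (N * Real.log (gelfondConst ((N + 1) ^ n))) := by ring

end Fermat.Agent.S17.H230
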