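import Fermat.Agent.S17.H230.Kronecker
import Mathlib.RingTheory.Polynomial.GaussNorm
import Mathlib.Analysis.Polynomial.MahlerMeasure

/-!
# S17 / tower H, piece P1 (helper230): sup norms of polynomials at one place

Local Gauss lemma (nonarchimedean places) and local Gelfond inequality (places coming from a
complex embedding) for the maximum of the absolute values of the coefficients, first for
univariate polynomials (Mathlib: `Polynomial.gaussNorm_mul`, Mahler measure), then for
`MvPolynomial (Fin n) K` by Kronecker substitution.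
-/

namespace Fermat.Agent.S17.H230

open MvPolynomial

section univariate

variable {K : Type*} [Field K]

/-- Sup of the absolute values of the coefficients of a univariate polynomial. -/
noncomputable def uSup (v : AbsoluteValue K ℝ) (p : Polynomial K) : ℝ :=
  ⨆ k : ℕ, v (p.coeff k)

lemma bddAbove_uSup (v : AbsoluteValue K ℝ) (p : Polynomial K) :
    BddAbove (Set.range fun k : ℕ ↦ v (p.coeff k)) :=
  ⟨p.gaussNorm v 1, by
    rintro _ ⟨k, rfl⟩
    simpa using p.le_gaussNorm v zero_le_one k⟩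

lemma le_uSup (v : AbsoluteValue K ℝ) (p : Polynomial K) (k : ℕ) : v (p.coeff k) ≤ uSup v p :=
  le_ciSup (bddAbove_uSup v p) k

lemma uSup_nonneg (v : AbsoluteValue K ℝ) (p : Polynomial K) : 0 ≤ uSup v p :=
  (v.nonneg _).trans (le_uSup v p 0)

lemma uSup_eq_gaussNorm (v : AbsoluteValue K ℝ) (p : Polynomial K) :
    uSup v p = p.gaussNorm v 1 := by
  refine le_antisymm (ciSup_le fun k ↦ ?_) ?_
  · simpa using p.le_gaussNorm v zero_le_one k
  · obtain ⟨i, hi⟩ := p.exists_eq_gaussNorm v 1
    rw [hi, one_pow, mul_one]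
    exact le_uSup v p i

lemma uSup_mul_of_nonarch {v : AbsoluteValue K ℝ} (hv : IsNonarchimedean v)
    (p q : Polynomial K) : uSup v (p * q) = uSup v p * uSup v q := by
  simp only [uSup_eq_gaussNorm]
  exact Polynomial.gaussNorm_mul hv one_pos p q

lemma uSup_mul_le (v : AbsoluteValue K ℝ) (p q : Polynomial K) :
    uSup v (p * q) ≤ (p.natDegree + 1 : ℕ) * (uSup v p * uSup v q) := by
  refine ciSup_le fun k ↦ ?_
  have h1 : (p * q).coeff k =
      ∑ i ∈ p.support, if i ≤ k then p.coeff i * q.coeff (k - i) else 0 := by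
    conv_lhs => rw [p.as_sum_support, Finset.sum_mul, Polynomial.finsetSum_coeff]
    exact Finset.sum_congr rfl fun i _ ↦ by
      rw [← Polynomial.C_mul_X_pow_eq_monomial, mul_assoc, Polynomial.coeff_C_mul,
        Polynomial.coeff_X_pow_mul']
      split_ifs <;> simp
  rw [h1]
  refine (v.sum_le _ _).trans ?_
  have h2 : ∀ i ∈ p.support, v (if i ≤ k then p.coeff i * q.coeff (k - i) else 0) ≤
      uSup v p * uSup v q := by
    intro i _
    split_ifs
    · rw [map_mul]
      exact mul_le_mul (le_uSup v p i) (le_uSup v q _) (v.nonneg _) (uSup_nonneg v p)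
    · rw [map_zero]
      exact mul_nonneg (uSup_nonneg v p) (uSup_nonneg v q)
  refine (Finset.sum_le_card_nsmul _ _ _ h2).trans ?_
  rw [nsmul_eq_mul]
  refine mul_le_mul_of_nonneg_right ?_ (mul_nonneg (uSup_nonneg v p) (uSup_nonneg v q))
  exact_mod_cast p.card_supp_le_succ_natDegree

lemma uSup_eq_supNorm_map (φ : K →+* ℂ) (v : AbsoluteValue K ℝ) (hv : ∀ x, v x = ‖φ x‖)
    (p : Polynomial K) : uSup v p = (p.map φ).supNorm := by
  rw [Polynomial.supNorm_eq_iSup, uSup]
  congr 1
  funext k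
  rw [Polynomial.coeff_map, hv]

/-- The constant in Gelfond's inequality (for degree `< N`). -/
noncomputable def gelfondConst (N : ℕ) : ℝ := 2 ^ N * Real.sqrt N

lemma one_le_gelfondConst {N : ℕ} (hN : 0 < N) : 1 ≤ gelfondConst N := by
  have h1 : (1 : ℝ) ≤ 2 ^ N := one_le_pow₀ (by norm_num)
  have h2 : (1 : ℝ) ≤ Real.sqrt N := by
    rw [Real.one_le_sqrt]
    exact_mod_cast hN
  calc (1 : ℝ) = 1 * 1 := by ring
    _ ≤ gelfondConst N := mul_le_mul h1 h2 zero_le_one (by positivity)

lemma natCast_le_gelfondConst {N : ℕ} (hN : 0 < N) : (N : ℝ) ≤ gelfondConst N := by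
  have h1 : (N : ℝ) ≤ 2 ^ N := by exact_mod_cast (Nat.lt_two_pow_self (n := N)).le
  have h2 : (1 : ℝ) ≤ Real.sqrt N := by
    rw [Real.one_le_sqrt]
    exact_mod_cast hN
  calc (N : ℝ) = N * 1 := by ring
    _ ≤ gelfondConst N := mul_le_mul h1 h2 zero_le_one (by positivity)

lemma gelfond_aux {d N : ℕ} (h : d < N) :
    (2 : ℝ) ^ d * Real.sqrt (d + 1) ≤ gelfondConst N := by
  have h1 : (2 : ℝ) ^ d ≤ 2 ^ N := pow_le_pow_right₀ (by norm_num) h.le
  have h2 : Real.sqrt ((d : ℝ) + 1) ≤ Real.sqrt N := by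
    apply Real.sqrt_le_sqrt
    exact_mod_cast h
  exact mul_le_mul h1 h2 (Real.sqrt_nonneg _) (by positivity)

/-- Gelfond's inequality for univariate polynomials at a complex place. -/
lemma uSup_mul_ge_of_arch (φ : K →+* ℂ) (v : AbsoluteValue K ℝ) (hv : ∀ x, v x = ‖φ x‖)
    {p q : Polynomial K} (hp : p ≠ 0) (hq : q ≠ 0) :
    uSup v p * uSup v q ≤
      (2 : ℝ) ^ (p * q).natDegree * Real.sqrt ((p * q).natDegree + 1) * uSup v (p * q) := by
  simp only [uSup_eq_supNorm_map φ v hv, Polynomial.map_mul]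
  set P := p.map φ with hP
  set Q := q.map φ with hQ
  have hdP : P.natDegree = p.natDegree := Polynomial.natDegree_map φ
  have hdQ : Q.natDegree = q.natDegree := Polynomial.natDegree_map φ
  have hd : (p * q).natDegree = P.natDegree + Q.natDegree := by
    rw [Polynomial.natDegree_mul hp hq, hdP, hdQ]
  have hPQ : (P * Q).natDegree = P.natDegree + Q.natDegree := by
    rw [← hd, hP, hQ, ← Polynomial.map_mul, Polynomial.natDegree_map]
  have e1 : P.supNorm ≤ 2 ^ P.natDegree * P.mahlerMeasure :=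
    (P.supNorm_le_choose_natDegree_div_two_mul_mahlerMeasure).trans <|
      mul_le_mul_of_nonneg_right (by exact_mod_cast Nat.choose_le_two_pow _ _)
        P.mahlerMeasure_nonneg
  have e2 : Q.supNorm ≤ 2 ^ Q.natDegree * Q.mahlerMeasure :=
    (Q.supNorm_le_choose_natDegree_div_two_mul_mahlerMeasure).trans <|
      mul_le_mul_of_nonneg_right (by exact_mod_cast Nat.choose_le_two_pow _ _)
        Q.mahlerMeasure_nonneg
  have e3 : (P * Q).mahlerMeasure ≤ Real.sqrt ((P * Q).natDegree + 1) * (P * Q).supNorm :=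
    (P * Q).mahlerMeasure_le_sqrt_natDegree_add_one_mul_supNorm
  rw [Polynomial.mahlerMeasure_mul, hPQ] at e3
  rw [hd]
  calc P.supNorm * Q.supNorm
      ≤ (2 ^ P.natDegree * P.mahlerMeasure) * (2 ^ Q.natDegree * Q.mahlerMeasure) :=
        mul_le_mul e1 e2 Q.supNorm_nonneg (mul_nonneg (by positivity) P.mahlerMeasure_nonneg)
    _ = 2 ^ (P.natDegree + Q.natDegree) * (P.mahlerMeasure * Q.mahlerMeasure) := by
        rw [pow_add]; ring
    _ ≤ 2 ^ (P.natDegree + Q.natDegree) *
          (Real.sqrt ((P.natDegree + Q.natDegree : ℕ) + 1) * (P * Q).supNorm) := by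
        gcongr
    _ = _ := by push_cast; ring

end univariate

section multivariate

variable {K : Type*} [Field K] {n : ℕ}

/-- Sup of the absolute values of the coefficients of a multivariate polynomial. -/
noncomputable def mvSup (v : AbsoluteValue K ℝ) (f : MvPolynomial (Fin n) K) : ℝ :=
  ⨆ m : f.support, v (f.coeff m)

lemma mvSup_nonneg (v : AbsoluteValue K ℝ) (f : MvPolynomial (Fin n) K) : 0 ≤ mvSup v f :=
  Real.iSup_nonneg fun _ ↦ v.nonneg _

lemma mvSup_eq_uSup (v : AbsoluteValue K ℝ) {B : ℕ} {f : MvPolynomial (Fin n) K}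
    (hf : ExpLT B f) : mvSup v f = uSup v (kron K B n f) := by
  refine le_antisymm ?_ (ciSup_le fun k ↦ ?_)
  · rcases isEmpty_or_nonempty f.support with h | h
    · rw [mvSup, Real.iSup_of_isEmpty]
      exact uSup_nonneg v _
    · refine ciSup_le fun m ↦ ?_
      rw [← coeff_kron_kronExp hf m.2]
      exact le_uSup v _ _
  · by_cases hk : (kron K B n f).coeff k = 0
    · rw [hk, map_zero]
      exact mvSup_nonneg v f
    · obtain ⟨m, hm, -, hc⟩ := exists_of_coeff_kron_ne_zero hf hk
      rw [hc]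
      exact Finite.le_ciSup_of_le (⟨m, hm⟩ : f.support) le_rfl

/-- Some `B` bigger than all exponents of `f`, `g` and `f * g`. -/
lemma exists_degree_bound (f g : MvPolynomial (Fin n) K) :
    ∃ B : ℕ, ∀ i, f.degreeOf i + g.degreeOf i < B :=
  ⟨(∑ i, (f.degreeOf i + g.degreeOf i)) + 1, fun i ↦ Nat.lt_succ_of_le <|
    Finset.single_le_sum (f := fun i ↦ f.degreeOf i + g.degreeOf i) (fun _ _ ↦ Nat.zero_le _)
      (Finset.mem_univ i)⟩

/-- **Gauss's lemma** for the sup norm of multivariate polynomials at a nonarchimedean place. -/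
theorem mvSup_mul_of_nonarch {v : AbsoluteValue K ℝ} (hv : IsNonarchimedean v)
    (f g : MvPolynomial (Fin n) K) : mvSup v (f * g) = mvSup v f * mvSup v g := by
  obtain ⟨B, hB⟩ := exists_degree_bound f g
  rw [mvSup_eq_uSup v (expLT_mul hB), mvSup_eq_uSup v (expLT_left hB),
    mvSup_eq_uSup v (expLT_right hB), map_mul, uSup_mul_of_nonarch hv]

/-- Trivial upper bound for the sup norm of a product (any absolute value). -/
theorem mvSup_mul_le (v : AbsoluteValue K ℝ) {B : ℕ} {f g : MvPolynomial (Fin n) K}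
    (hB : ∀ i, f.degreeOf i + g.degreeOf i < B) (hf : f ≠ 0) :
    mvSup v (f * g) ≤ (B ^ n : ℕ) * (mvSup v f * mvSup v g) := by
  rw [mvSup_eq_uSup v (expLT_mul hB), mvSup_eq_uSup v (expLT_left hB),
    mvSup_eq_uSup v (expLT_right hB), map_mul]
  refine (uSup_mul_le v _ _).trans ?_
  refine mul_le_mul_of_nonneg_right ?_ (mul_nonneg (uSup_nonneg v _) (uSup_nonneg v _))
  exact_mod_cast natDegree_kron_lt (expLT_left hB) hf

/-- **Gelfond's inequality** for the sup norm of multivariate polynomials at a complex place. -/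
theorem mvSup_mul_ge_of_arch (φ : K →+* ℂ) (v : AbsoluteValue K ℝ) (hv : ∀ x, v x = ‖φ x‖)
    {B : ℕ} {f g : MvPolynomial (Fin n) K} (hB : ∀ i, f.degreeOf i + g.degreeOf i < B)
    (hf : f ≠ 0) (hg : g ≠ 0) :
    mvSup v f * mvSup v g ≤ gelfondConst (B ^ n) * mvSup v (f * g) := by
  rw [mvSup_eq_uSup v (expLT_mul hB), mvSup_eq_uSup v (expLT_left hB),
    mvSup_eq_uSup v (expLT_right hB), map_mul]
  have hf' := kron_ne_zero (expLT_left hB) hf
  have hg' := kron_ne_zero (expLT_right hB) hg
  refine (uSup_mul_ge_of_arch φ v hv hf' hg').trans ?_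
  refine mul_le_mul_of_nonneg_right (gelfond_aux ?_) (uSup_nonneg v _)
  rw [← map_mul]
  exact natDegree_kron_lt (expLT_mul hB) (mul_ne_zero hf hg)

end multivariate

end Fermat.Agent.S17.H230
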