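import Fermat.Agent.S17.H230.LocalGlobal
import Fermat.Agent.S17.H230.SupNorm

/-!
# S17 / tower H, piece P1 (helper230): the Gauss–Gelfond lemma for heights of polynomials

For a number field `K` and nonzero `f g : MvPolynomial (Fin n) K` with
`degreeOf i f + degreeOf i g < B` for all `i`:
`|h(f * g) - (h(f) + h(g))| ≤ [K : ℚ] * log (gelfondConst (B ^ n))`,
where `h` is the logarithmic height of the coefficient vector.  The constant is
`[K : ℚ]` times a constant depending only on `n` and `B`, so the statement lifts to absolute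
heights over `ℚ̄`.
-/

namespace Fermat.Agent.S17.H230

open Height AdmissibleAbsValues MvPolynomial

section defs

variable {K : Type*} [Field K] {n : ℕ}

/-- The coefficient tuple of a polynomial (indexed by its support). -/
def coeffTuple (f : MvPolynomial (Fin n) K) : f.support → K := fun m ↦ f.coeff m

lemma coeffTuple_ne_zero {f : MvPolynomial (Fin n) K} (hf : f ≠ 0) : coeffTuple f ≠ 0 := by
  obtain ⟨m, hm⟩ := MvPolynomial.support_nonempty.mpr hf
  intro h
  exact (MvPolynomial.mem_support_iff.mp hm) (congrFun h ⟨m, hm⟩)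

variable [AdmissibleAbsValues K]

/-- Multiplicative height of a polynomial := height of its coefficient vector. -/
noncomputable def polyMulHeight (f : MvPolynomial (Fin n) K) : ℝ := mulHeight (coeffTuple f)

/-- Logarithmic height of a polynomial := height of its coefficient vector. -/
noncomputable def polyLogHeight (f : MvPolynomial (Fin n) K) : ℝ := logHeight (coeffTuple f)

lemma polyLogHeight_eq_log (f : MvPolynomial (Fin n) K) :
    polyLogHeight f = Real.log (polyMulHeight f) := rfl

lemma one_le_polyMulHeight (f : MvPolynomial (Fin n) K) : 1 ≤ polyMulHeight f :=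
  one_le_mulHeight _

/-- The height of a polynomial can be computed on any finite index set containing the
support. -/
lemma polyMulHeight_eq_mulHeight {ι : Type*} [Finite ι] (f : MvPolynomial (Fin n) K)
    (e : ι → (Fin n →₀ ℕ)) (he : Function.Injective e) (hs : ∀ m ∈ f.support, ∃ i, e i = m) :
    polyMulHeight f = mulHeight fun i ↦ f.coeff (e i) := by
  classical
  rw [mulHeight_eq_mulHeight_restrict_support fun i ↦ f.coeff (e i)]
  let E : {i : ι // f.coeff (e i) ≠ 0} ≃ f.support :=
    Equiv.ofBijective (fun i ↦ ⟨e i.1, MvPolynomial.mem_support_iff.mpr i.2⟩)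
      ⟨fun a b h ↦ Subtype.ext (he (by simpa using congrArg Subtype.val h)), fun m ↦ by
        obtain ⟨i, hi⟩ := hs m.1 m.2
        exact ⟨⟨i, by rw [hi]; exact MvPolynomial.mem_support_iff.mp m.2⟩, Subtype.ext hi⟩⟩
  rw [polyMulHeight, ← mulHeight_comp_equiv E (coeffTuple f)]
  rfl

end defs

section segre

variable {K : Type*} [Field K] {n : ℕ}

lemma iSup_segre (v : AbsoluteValue K ℝ) (f g : MvPolynomial (Fin n) K) :
    ⨆ a : f.support × g.support, v (coeffTuple f a.1 * coeffTuple g a.2) =
      mvSup v f * mvSup v g :=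
  Real.iSup_fun_mul_eq_iSup_mul_iSup_of_nonneg v (coeffTuple f) (coeffTuple g)

lemma segre_ne_zero {f g : MvPolynomial (Fin n) K} (hf : f ≠ 0) (hg : g ≠ 0) :
    (fun a : f.support × g.support ↦ coeffTuple f a.1 * coeffTuple g a.2) ≠ 0 := by
  obtain ⟨m, hm⟩ := MvPolynomial.support_nonempty.mpr hf
  obtain ⟨m', hm'⟩ := MvPolynomial.support_nonempty.mpr hg
  intro h
  have := congrFun h (⟨m, hm⟩, ⟨m', hm'⟩)
  exact mul_ne_zero (MvPolynomial.mem_support_iff.mp hm) (MvPolynomial.mem_support_iff.mp hm') this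

lemma pow_pos_of_degree_bound {B : ℕ} {f g : MvPolynomial (Fin n) K}
    (hB : ∀ i, f.degreeOf i + g.degreeOf i < B) : 0 < B ^ n := by
  rcases Nat.eq_zero_or_pos n with h | h
  · subst h; simp
  · exact Nat.pow_pos (lt_of_le_of_lt (Nat.zero_le _) (hB ⟨0, h⟩))

end segre

section numberField

variable {K : Type*} [Field K] [NumberField K] {n : ℕ}

lemma exists_embedding_of_mem_archAbsVal {v : AbsoluteValue K ℝ}
    (hv : v ∈ archAbsVal (K := K)) : ∃ φ : K →+* ℂ, ∀ x, v x = ‖φ x‖ := by
  have h1 : NumberField.IsInfinitePlace v := NumberField.mem_multisetInfinitePlace.mp hv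
  obtain ⟨φ, rfl⟩ := h1
  exact ⟨φ, fun x ↦ NumberField.place_apply φ x⟩

/-- Upper bound `H(f g) ≤ c ^ [K:ℚ] * H(f) * H(g)`. -/
theorem polyMulHeight_mul_le {B : ℕ} {f g : MvPolynomial (Fin n) K}
    (hB : ∀ i, f.degreeOf i + g.degreeOf i < B) (hf : f ≠ 0) (hg : g ≠ 0) :
    polyMulHeight (f * g) ≤
      gelfondConst (B ^ n) ^ totalWeight K * (polyMulHeight f * polyMulHeight g) := by
  have hBn : 0 < B ^ n := pow_pos_of_degree_bound hB
  have hc : 0 ≤ gelfondConst (B ^ n) := zero_le_one.trans (one_le_gelfondConst hBn)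
  rw [polyMulHeight, polyMulHeight, polyMulHeight,
    ← mulHeight_fun_mul_eq (coeffTuple_ne_zero hf) (coeffTuple_ne_zero hg)]
  refine mulHeight_le_of_local (coeffTuple_ne_zero (mul_ne_zero hf hg)) (segre_ne_zero hf hg) hc
    (fun v _ ↦ ?_) (fun v hv ↦ ?_)
  · rw [iSup_segre]
    refine (mvSup_mul_le v hB hf).trans ?_
    exact mul_le_mul_of_nonneg_right (natCast_le_gelfondConst hBn)
      (mul_nonneg (mvSup_nonneg v f) (mvSup_nonneg v g))
  · rw [iSup_segre]
    exact (mvSup_mul_of_nonarch (isNonarchimedean v hv) f g).le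

/-- Lower bound `H(f) * H(g) ≤ c ^ [K:ℚ] * H(f g)` (Gauss–Gelfond). -/
theorem polyMulHeight_mul_ge {B : ℕ} {f g : MvPolynomial (Fin n) K}
    (hB : ∀ i, f.degreeOf i + g.degreeOf i < B) (hf : f ≠ 0) (hg : g ≠ 0) :
    polyMulHeight f * polyMulHeight g ≤
      gelfondConst (B ^ n) ^ totalWeight K * polyMulHeight (f * g) := by
  have hBn : 0 < B ^ n := pow_pos_of_degree_bound hB
  have hc : 0 ≤ gelfondConst (B ^ n) := zero_le_one.trans (one_le_gelfondConst hBn)
  rw [polyMulHeight, polyMulHeight, polyMulHeight,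
    ← mulHeight_fun_mul_eq (coeffTuple_ne_zero hf) (coeffTuple_ne_zero hg)]
  refine mulHeight_le_of_local (segre_ne_zero hf hg) (coeffTuple_ne_zero (mul_ne_zero hf hg)) hc
    (fun v hv ↦ ?_) (fun v hv ↦ ?_)
  · rw [iSup_segre]
    obtain ⟨φ, hφ⟩ := exists_embedding_of_mem_archAbsVal hv
    exact mvSup_mul_ge_of_arch φ v hφ hB hf hg
  · rw [iSup_segre]
    exact (mvSup_mul_of_nonarch (isNonarchimedean v hv) f g).ge

/-- **Gauss–Gelfond**: the logarithmic height of polynomials is additive up to a constant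
`[K : ℚ] * C(n, B)`. -/
theorem abs_polyLogHeight_mul_sub_le {B : ℕ} {f g : MvPolynomial (Fin n) K}
    (hB : ∀ i, f.degreeOf i + g.degreeOf i < B) (hf : f ≠ 0) (hg : g ≠ 0) :
    |polyLogHeight (f * g) - (polyLogHeight f + polyLogHeight g)| ≤
      Module.finrank ℚ K * Real.log (gelfondConst (B ^ n)) := by
  have hBn : 0 < B ^ n := pow_pos_of_degree_bound hB
  have hc : 0 < gelfondConst (B ^ n) := zero_lt_one.trans_le (one_le_gelfondConst hBn)
  have h1 := polyMulHeight_mul_le hB hf hg
  have h2 := polyMulHeight_mul_ge hB hf hg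
  have pf : 0 < polyMulHeight f := zero_lt_one.trans_le (one_le_polyMulHeight f)
  have pg : 0 < polyMulHeight g := zero_lt_one.trans_le (one_le_polyMulHeight g)
  have pfg : 0 < polyMulHeight (f * g) := zero_lt_one.trans_le (one_le_polyMulHeight _)
  have l1 := Real.log_le_log pfg h1
  have l2 := Real.log_le_log (mul_pos pf pg) h2
  rw [Real.log_mul (pow_pos hc _).ne' (mul_pos pf pg).ne', Real.log_mul pf.ne' pg.ne',
    Real.log_pow] at l1
  rw [Real.log_mul (pow_pos hc _).ne' pfg.ne', Real.log_mul pf.ne' pg.ne', Real.log_pow] at l2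
  rw [NumberField.totalWeight_eq_finrank] at l1 l2
  simp only [polyLogHeight_eq_log]
  rw [abs_le]
  constructor <;> linarith

end numberField

end Fermat.Agent.S17.H230
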