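import Fermat.Agent.S17.H230.GaussGelfond

/-!
# S17 / tower H, piece P1 (helper230): Gauss–Gelfond for finite products and linear forms

* `abs_polyLogHeight_prod_sub_le`: `|h(∏ f_i) - ∑ h(f_i)| ≤ #s * [K:ℚ] * log C(n,B)`.
* `abs_polyLogHeight_prod_linForm_sub_le`: for vectors `x_1, …, x_N ∈ K^n ∖ 0`, the height of
  the polynomial `∏_i ⟨x_i, T⟩` (a "Chow form") is `∑_i h(x_i)` up to `N * [K:ℚ] * log C(n,N+1)`.
-/

namespace Fermat.Agent.S17.H230

open Height AdmissibleAbsValues MvPolynomial

section basic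

variable {K : Type*} [Field K] [AdmissibleAbsValues K] {n : ℕ}

lemma polyMulHeight_one : polyMulHeight (1 : MvPolynomial (Fin n) K) = 1 := by
  rw [polyMulHeight_eq_mulHeight (ι := Unit) 1 (fun _ ↦ 0) (fun _ _ _ ↦ rfl)]
  · exact mulHeight_eq_one_of_subsingleton _
  · intro m hm
    refine ⟨(), ?_⟩
    by_contra h
    rw [MvPolynomial.mem_support_iff, MvPolynomial.coeff_one, if_neg h] at hm
    exact hm rfl

lemma polyLogHeight_one : polyLogHeight (1 : MvPolynomial (Fin n) K) = 0 := by
  rw [polyLogHeight_eq_log, polyMulHeight_one, Real.log_one]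

/-- The height of a polynomial is invariant under scaling. -/
lemma polyMulHeight_C_mul {a : K} (ha : a ≠ 0) (f : MvPolynomial (Fin n) K) :
    polyMulHeight (C a * f) = polyMulHeight f := by
  have hs : (C a * f).support = f.support := by
    ext m
    simp [MvPolynomial.mem_support_iff, ha]
  rw [polyMulHeight_eq_mulHeight (ι := f.support) (C a * f) (fun m ↦ m.1)
    Subtype.val_injective (fun m hm ↦ ⟨⟨m, hs ▸ hm⟩, rfl⟩)]
  have : (fun i : f.support ↦ (C a * f).coeff i.1) = a • coeffTuple f := by
    funext i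
    simp [coeffTuple]
  rw [this, mulHeight_smul_eq_mulHeight _ ha]
  rfl

lemma polyLogHeight_C_mul {a : K} (ha : a ≠ 0) (f : MvPolynomial (Fin n) K) :
    polyLogHeight (C a * f) = polyLogHeight f := by
  rw [polyLogHeight_eq_log, polyLogHeight_eq_log, polyMulHeight_C_mul ha]

end basic

section linForm

variable {K : Type*} [Field K] {n : ℕ}

/-- The linear form `∑ j, x j * T_j`. -/
noncomputable def linForm (x : Fin n → K) : MvPolynomial (Fin n) K := ∑ j, C (x j) * X j

lemma coeff_linForm (x : Fin n → K) (m : Fin n →₀ ℕ) :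
    (linForm x).coeff m = ∑ j, if Finsupp.single j 1 = m then x j else 0 := by
  classical
  rw [linForm, MvPolynomial.coeff_sum]
  refine Finset.sum_congr rfl fun j _ ↦ ?_
  rw [MvPolynomial.coeff_C_mul, MvPolynomial.coeff_X]
  split_ifs <;> simp

lemma coeff_linForm_single (x : Fin n → K) (j : Fin n) :
    (linForm x).coeff (Finsupp.single j 1) = x j := by
  classical
  rw [coeff_linForm, Finset.sum_eq_single j]
  · simp
  · intro i _ hij
    rw [if_neg]
    intro h
    exact hij (Finsupp.single_left_injective one_ne_zero h)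
  · intro h; exact absurd (Finset.mem_univ j) h

lemma exists_of_mem_support_linForm {x : Fin n → K} {m : Fin n →₀ ℕ}
    (hm : m ∈ (linForm x).support) : ∃ j, Finsupp.single j 1 = m := by
  classical
  rw [MvPolynomial.mem_support_iff, coeff_linForm] at hm
  obtain ⟨j, -, hj⟩ := Finset.exists_ne_zero_of_sum_ne_zero hm
  by_contra h
  push Not at h
  exact hj (if_neg (h j))

lemma degreeOf_linForm_le (x : Fin n → K) (i : Fin n) : (linForm x).degreeOf i ≤ 1 := by
  classical
  rw [MvPolynomial.degreeOf_le_iff]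
  intro m hm
  obtain ⟨j, rfl⟩ := exists_of_mem_support_linForm hm
  rw [Finsupp.single_apply]
  split_ifs <;> simp

lemma linForm_ne_zero {x : Fin n → K} (hx : x ≠ 0) : linForm x ≠ 0 := by
  obtain ⟨j, hj⟩ := Function.ne_iff.mp hx
  intro h
  have := coeff_linForm_single x j
  rw [h, MvPolynomial.coeff_zero] at this
  exact hj this.symm

variable [AdmissibleAbsValues K]

lemma polyMulHeight_linForm (x : Fin n → K) : polyMulHeight (linForm x) = mulHeight x := by
  rw [polyMulHeight_eq_mulHeight (linForm x) (fun j : Fin n ↦ Finsupp.single j 1)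
    (Finsupp.single_left_injective one_ne_zero) (fun m hm ↦ exists_of_mem_support_linForm hm)]
  congr 1
  funext j
  exact coeff_linForm_single x j

lemma polyLogHeight_linForm (x : Fin n → K) : polyLogHeight (linForm x) = logHeight x := by
  rw [polyLogHeight_eq_log, polyMulHeight_linForm, logHeight_eq_log_mulHeight]

end linForm

section numberField

variable {K : Type*} [Field K] [NumberField K] {n : ℕ}

/-- **Gauss–Gelfond for finite products.** -/
theorem abs_polyLogHeight_prod_sub_le {ι : Type*} (s : Finset ι)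
    (f : ι → MvPolynomial (Fin n) K) {B : ℕ} (hf : ∀ i ∈ s, f i ≠ 0)
    (hB : ∀ j, ∑ i ∈ s, (f i).degreeOf j < B) :
    |polyLogHeight (∏ i ∈ s, f i) - ∑ i ∈ s, polyLogHeight (f i)| ≤
      s.card * (Module.finrank ℚ K * Real.log (gelfondConst (B ^ n))) := by
  classical
  induction s using Finset.induction_on with
  | empty => simp [polyLogHeight_one]
  | insert a s ha ih =>
    have hf' : ∀ i ∈ s, f i ≠ 0 := fun i hi ↦ hf i (Finset.mem_insert_of_mem hi)
    have hB' : ∀ j, ∑ i ∈ s, (f i).degreeOf j < B := fun j ↦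
      lt_of_le_of_lt (by rw [Finset.sum_insert ha]; exact Nat.le_add_left _ _) (hB j)
    have hB'' : ∀ j, (f a).degreeOf j + (∏ i ∈ s, f i).degreeOf j < B := fun j ↦ by
      refine lt_of_le_of_lt ?_ (hB j)
      rw [Finset.sum_insert ha]
      exact Nat.add_le_add_left (MvPolynomial.degreeOf_prod_le j s f) _
    have h1 := ih hf' hB'
    have h2 := abs_polyLogHeight_mul_sub_le hB'' (hf a (Finset.mem_insert_self a s))
      (Finset.prod_ne_zero_iff.mpr hf')
    rw [Finset.prod_insert ha, Finset.sum_insert ha, Finset.card_insert_of_notMem ha]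
    push_cast
    rw [abs_le] at h1 h2 ⊢
    constructor <;> nlinarith [h1.1, h1.2, h2.1, h2.2]

/-- **Height of a product of linear forms** (Chow form of a zero-cycle):
`|h(∏ ⟨x_i, T⟩) - ∑ h(x_i)| ≤ N * [K:ℚ] * log C(n, N+1)`. -/
theorem abs_polyLogHeight_prod_linForm_sub_le {N : ℕ} (x : Fin N → Fin n → K)
    (hx : ∀ i, x i ≠ 0) :
    |polyLogHeight (∏ i, linForm (x i)) - ∑ i, logHeight (x i)| ≤
      N * (Module.finrank ℚ K * Real.log (gelfondConst ((N + 1) ^ n))) := by
  have h := abs_polyLogHeight_prod_sub_le (K := K) (Finset.univ : Finset (Fin N))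
    (fun i ↦ linForm (x i)) (B := N + 1) (fun i _ ↦ linForm_ne_zero (hx i)) (fun j ↦ by
      refine Nat.lt_succ_of_le ?_
      calc ∑ i : Fin N, (linForm (x i)).degreeOf j ≤ ∑ _i : Fin N, 1 :=
            Finset.sum_le_sum fun i _ ↦ degreeOf_linForm_le (x i) j
        _ = N := by simp)
  simpa [polyLogHeight_linForm] using h

end numberField

end Fermat.Agent.S17.H230
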