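import Fermat.Agent.S17.H230.EmbCons
import Fermat.Agent.S17.H710.ConePoints
import Mathlib.RingTheory.MvPolynomial.EulerIdentity
import Mathlib.LinearAlgebra.Dual.Lemmas

/-!
# S17 / tower H (helper230): first order jets at a place

* `d1At_mul` : `d1At v` is a point derivation at `v` (Leibniz rule with respect to `valAt v`);
* `valAt_aeval`, `d1At_aeval` : chain rule for polynomial expressions in regular functions;
* `jetP z z' G = Σᵢ ∂ᵢG(z) z'ᵢ` with its calculus (`jetP_mul`, `jetP_prod`, …);
* `jet_ptD_eq_zero` : the jet `(ptD, tnD)` kills the homogeneous relations of `x`;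
* `mem_span_of_forall_dot` : double annihilator in `K^n`;
* `jetP_eq_zero_of_span` : the same for every pair `(λ c, μ t + ν c)` (Euler's identity).
-/

set_option autoImplicit false

noncomputable section

open AlgebraicCurve MvPolynomial

namespace Fermat.Agent.S17.H230

open Fermat.Agent.Lib.RR Fermat.Agent.S17.HWall

variable {K F : Type*} [Field K] [Field F] [Algebra K F] [FF1 K F] {ι : Type*}

/-! ### `d1At` is a point derivation -/

theorem eq_add_unif_mul_quot1 (v : Place K F) (f : F) :
    f = algebraMap K F (valAt v f) + unif v * quot1 v f := by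
  unfold quot1
  field_simp [unif_ne_zero v]
  ring

theorem valAt_unif (v : Place K F) : valAt v (unif v) = 0 := by
  have hreg : RegAt v (unif v) := by rw [regAt_iff, ord_unif]; omega
  rw [valAt_eq_zero_iff hreg]
  right
  rw [ord_unif]
  omega

theorem regAt_unif (v : Place K F) : RegAt v (unif v) := by
  rw [regAt_iff, ord_unif]; omega

/-- uniqueness of the first order expansion -/
theorem quot1_eq_of_eq {v : Place K F} {f g : F} {a : K}
    (h : f = algebraMap K F a + unif v * g) (hg : RegAt v g) : valAt v f = a ∧ quot1 v f = g := by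
  have h1 : valAt v f = a := by
    rw [h, valAt_add (regAt_algebraMap v a) ((regAt_unif v).mul hg), valAt_algebraMap,
      valAt_mul (regAt_unif v) hg, valAt_unif, zero_mul, add_zero]
  refine ⟨h1, ?_⟩
  unfold quot1
  rw [h1, h]
  field_simp [unif_ne_zero v]
  ring

theorem d1At_algebraMap (v : Place K F) (a : K) : d1At v (algebraMap K F a) = 0 := by
  unfold d1At
  have := (quot1_eq_of_eq (v := v) (f := algebraMap K F a) (g := 0) (a := a) (by simp)
    (regAt_zero v)).2
  rw [this, valAt_zero]

theorem d1At_add {v : Place K F} {f g : F} (hf : RegAt v f) (hg : RegAt v g) :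
    d1At v (f + g) = d1At v f + d1At v g := by
  unfold d1At
  have h : f + g = algebraMap K F (valAt v f + valAt v g) + unif v * (quot1 v f + quot1 v g) := by
    conv_lhs => rw [eq_add_unif_mul_quot1 v f, eq_add_unif_mul_quot1 v g]
    rw [map_add]
    ring
  rw [(quot1_eq_of_eq h ((regAt_quot1 hf).add (regAt_quot1 hg))).2,
    valAt_add (regAt_quot1 hf) (regAt_quot1 hg)]

/-- **Leibniz rule**. -/
theorem d1At_mul {v : Place K F} {f g : F} (hf : RegAt v f) (hg : RegAt v g) :
    d1At v (f * g) = valAt v f * d1At v g + valAt v g * d1At v f := by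
  unfold d1At
  have hq : RegAt v (algebraMap K F (valAt v f) * quot1 v g +
      algebraMap K F (valAt v g) * quot1 v f + unif v * (quot1 v f * quot1 v g)) :=
    (((regAt_algebraMap v _).mul (regAt_quot1 hg)).add
      ((regAt_algebraMap v _).mul (regAt_quot1 hf))).add
      ((regAt_unif v).mul ((regAt_quot1 hf).mul (regAt_quot1 hg)))
  have h : f * g = algebraMap K F (valAt v f * valAt v g) +
      unif v * (algebraMap K F (valAt v f) * quot1 v g +
        algebraMap K F (valAt v g) * quot1 v f + unif v * (quot1 v f * quot1 v g)) := by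
    conv_lhs => rw [eq_add_unif_mul_quot1 v f, eq_add_unif_mul_quot1 v g]
    rw [map_mul]
    ring
  rw [(quot1_eq_of_eq h hq).2,
    valAt_add (((regAt_algebraMap v _).mul (regAt_quot1 hg)).add
      ((regAt_algebraMap v _).mul (regAt_quot1 hf)))
      ((regAt_unif v).mul ((regAt_quot1 hf).mul (regAt_quot1 hg))),
    valAt_add ((regAt_algebraMap v _).mul (regAt_quot1 hg))
      ((regAt_algebraMap v _).mul (regAt_quot1 hf)),
    valAt_mul (regAt_algebraMap v _) (regAt_quot1 hg),
    valAt_mul (regAt_algebraMap v _) (regAt_quot1 hf),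
    valAt_mul (regAt_unif v) ((regAt_quot1 hf).mul (regAt_quot1 hg)),
    valAt_unif, valAt_algebraMap, valAt_algebraMap, zero_mul, add_zero]

/-! ### Jets of polynomials -/

/-- the first order jet `Σᵢ ∂ᵢG(z) z'ᵢ` of `G` at `z` in the direction `z'` -/
def jetP [Fintype ι] (z z' : ι → K) (G : MvPolynomial ι K) : K :=
  ∑ i, eval z (pderiv i G) * z' i

section jet

variable [Fintype ι] [DecidableEq ι]

omit [DecidableEq ι] in
theorem jetP_add (z z' : ι → K) (G H : MvPolynomial ι K) :
    jetP z z' (G + H) = jetP z z' G + jetP z z' H := by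
  unfold jetP
  simp only [map_add, add_mul, Finset.sum_add_distrib]

omit [DecidableEq ι] in
theorem jetP_sub (z z' : ι → K) (G H : MvPolynomial ι K) :
    jetP z z' (G - H) = jetP z z' G - jetP z z' H := by
  unfold jetP
  simp only [map_sub, sub_mul, Finset.sum_sub_distrib]

omit [DecidableEq ι] in
theorem jetP_smul (z z' : ι → K) (a : K) (G : MvPolynomial ι K) :
    jetP z z' (a • G) = a * jetP z z' G := by
  unfold jetP
  rw [Finset.mul_sum]
  refine Finset.sum_congr rfl fun i _ ↦ ?_
  rw [Derivation.map_smul, smul_eval, mul_assoc]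

omit [DecidableEq ι] in
theorem jetP_C (z z' : ι → K) (a : K) : jetP z z' (C a : MvPolynomial ι K) = 0 := by
  unfold jetP
  simp

theorem jetP_X (z z' : ι → K) (j : ι) : jetP z z' (X j : MvPolynomial ι K) = z' j := by
  unfold jetP
  simp [pderiv_X, Pi.single_apply, Finset.sum_ite_eq]

omit [DecidableEq ι] in
theorem jetP_mul (z z' : ι → K) (G H : MvPolynomial ι K) :
    jetP z z' (G * H) = eval z G * jetP z z' H + eval z H * jetP z z' G := by
  unfold jetP
  simp only [Derivation.leibniz, map_add, Finset.mul_sum, ← Finset.sum_add_distrib]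
  refine Finset.sum_congr rfl fun i _ ↦ ?_
  simp only [smul_eq_mul, map_mul]
  ring

omit [DecidableEq ι] in
theorem jetP_sum {κ : Type*} (s : Finset κ) (z z' : ι → K) (G : κ → MvPolynomial ι K) :
    jetP z z' (∑ k ∈ s, G k) = ∑ k ∈ s, jetP z z' (G k) := by
  classical
  induction s using Finset.induction_on with
  | empty => simpa using jetP_C z z' (0 : K)
  | insert a s ha ih => rw [Finset.sum_insert ha, Finset.sum_insert ha, jetP_add, ih]

omit [DecidableEq ι] in
theorem jetP_prod {κ : Type*} [DecidableEq κ] (s : Finset κ) (z z' : ι → K)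
    (G : κ → MvPolynomial ι K) :
    jetP z z' (∏ k ∈ s, G k) = ∑ l ∈ s, jetP z z' (G l) * ∏ k ∈ s.erase l, eval z (G k) := by
  induction s using Finset.induction_on with
  | empty => simpa using jetP_C z z' (1 : K)
  | insert a s ha ih =>
    rw [Finset.prod_insert ha, jetP_mul, ih, Finset.sum_insert ha, Finset.erase_insert ha,
      map_prod, Finset.mul_sum, add_comm]
    congr 1
    · ring
    · refine Finset.sum_congr rfl fun l hl ↦ ?_
      have hne : l ≠ a := fun h ↦ ha (h ▸ hl)
      rw [Finset.erase_insert_of_ne hne.symm, Finset.prod_insert (by simp [ha])]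
      ring

end jet

/-! ### Chain rule at a place -/

theorem regAt_aeval {v : Place K F} {x : ι → F} (hx : ∀ i, RegAt v (x i))
    (G : MvPolynomial ι K) : RegAt v (aeval x G) := by
  induction G using MvPolynomial.induction_on with
  | C a => simpa using regAt_algebraMap v a
  | add p q hp hq => rw [map_add]; exact hp.add hq
  | mul_X p i hp => rw [map_mul, aeval_X]; exact hp.mul (hx i)

theorem valAt_aeval {v : Place K F} {x : ι → F} (hx : ∀ i, RegAt v (x i))
    (G : MvPolynomial ι K) : valAt v (aeval x G) = eval (fun i ↦ valAt v (x i)) G := by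
  induction G using MvPolynomial.induction_on with
  | C a => simp
  | add p q hp hq =>
    rw [map_add, valAt_add (regAt_aeval hx p) (regAt_aeval hx q), hp, hq, map_add]
  | mul_X p i hp =>
    rw [map_mul, aeval_X, valAt_mul (regAt_aeval hx p) (hx i), hp, map_mul, eval_X]

/-- **Chain rule** for the point derivation `d1At v`. -/
theorem d1At_aeval [Fintype ι] {v : Place K F} {x : ι → F} (hx : ∀ i, RegAt v (x i))
    (G : MvPolynomial ι K) :
    d1At v (aeval x G) = jetP (fun i ↦ valAt v (x i)) (fun i ↦ d1At v (x i)) G := by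
  classical
  induction G using MvPolynomial.induction_on with
  | C a =>
    rw [jetP_C]
    simpa using d1At_algebraMap v a
  | add p q hp hq =>
    rw [map_add, d1At_add (regAt_aeval hx p) (regAt_aeval hx q), hp, hq, jetP_add]
  | mul_X p i hp =>
    rw [map_mul, aeval_X, d1At_mul (regAt_aeval hx p) (hx i), hp, jetP_mul, jetP_X, eval_X,
      valAt_aeval hx]

/-! ### Jets kill the homogeneous relations -/

/-- The point `ptD D x v` satisfies the homogeneous relations of `x`, and the jet
`(ptD D x v, tnD D x v)` kills them. -/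
theorem jet_ptD_eq_zero [Fintype ι] {D : Divisor K F} {x : ι → F}
    (hx : ∀ i, x i ∈ riemannRochSpace D) (v : Place K F) {k : ℕ} {G : MvPolynomial ι K}
    (hG : G.IsHomogeneous k) (h0 : aeval x G = 0) :
    eval (ptD D x v) G = 0 ∧ jetP (ptD D x v) (tnD D x v) G = 0 := by
  have hreg : ∀ i, RegAt v (unif v ^ (D v) * x i) := fun i ↦ by
    rw [mul_comm]; exact regAt_normD hx v i
  have h1 : aeval (fun i ↦ unif v ^ (D v) * x i) G = 0 := by
    rw [Fermat.Agent.S17.H710.aeval_mul_of_isHomogeneous hG, h0, mul_zero]
  have hpt : (fun i ↦ valAt v (unif v ^ (D v) * x i)) = ptD D x v := by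
    funext i
    rw [ptD_apply, mul_comm]
  have htn : (fun i ↦ d1At v (unif v ^ (D v) * x i)) = tnD D x v := by
    funext i
    unfold tnD
    rw [mul_comm]
  constructor
  · rw [← hpt, ← valAt_aeval hreg, h1, valAt_zero]
  · rw [← hpt, ← htn, ← d1At_aeval hreg, h1]
    simpa using d1At_algebraMap v (0 : K)

/-! ### Double annihilator in `K^n` -/

omit [FF1 K F] [Algebra K F] [Field F] in
/-- If every linear form killing all `w j` kills `u`, then `u` lies in the span of the `w j`. -/
theorem mem_span_of_forall_dot {n : ℕ} {κ : Type*} (w : κ → Fin n → K) (u : Fin n → K)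
    (h : ∀ a : Fin n → K, (∀ j, dot a (w j) = 0) → dot a u = 0) :
    u ∈ Submodule.span K (Set.range w) := by
  rw [← Subspace.forall_mem_dualAnnihilator_apply_eq_zero_iff]
  intro φ hφ
  have hrep : ∀ y : Fin n → K, φ y = dot (fun i ↦ φ (Pi.single i 1)) y := by
    intro y
    have hy : y = ∑ i, y i • (Pi.single i (1 : K) : Fin n → K) := by
      funext j
      simp [Finset.sum_apply, Pi.single_apply]
    conv_lhs => rw [hy]
    rw [map_sum]
    simp only [map_smul, smul_eq_mul, dot, dotProduct]
    exact Finset.sum_congr rfl fun i _ ↦ mul_comm _ _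
  rw [hrep]
  apply h
  intro j
  rw [← hrep]
  exact (Submodule.mem_dualAnnihilator φ).mp hφ (w j) (Submodule.subset_span ⟨j, rfl⟩)

/-! ### Jets along proportional data (Euler) -/

omit [FF1 K F] [Algebra K F] [Field F] in
theorem eval_smul_of_isHomogeneous {n : ℕ} {G : MvPolynomial (Fin n) K} {k : ℕ}
    (hG : G.IsHomogeneous k) (l : K) (c : Fin n → K) :
    eval (l • c) G = l ^ k * eval c G := by
  have := Fermat.Agent.S17.H710.aeval_mul_of_isHomogeneous (S := K) hG l c
  simpa [aeval_eq_eval, Pi.smul_def] using this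

omit [FF1 K F] [Algebra K F] [Field F] in
/-- If `G` (homogeneous) vanishes at `c` and the jet `(c, t)` kills `G`, then so does every jet
`(l c, μ t + ν c)`. -/
theorem jetP_eq_zero_of_span {n : ℕ} {G : MvPolynomial (Fin n) K} {k : ℕ}
    (hG : G.IsHomogeneous k) {c t : Fin n → K} (h0 : eval c G = 0) (h1 : jetP c t G = 0)
    (l μ ν : K) : jetP (l • c) (μ • t + ν • c) G = 0 := by
  have hE : ∑ i, eval c (pderiv i G) * c i = (k : K) * eval c G := by
    have := congrArg (eval c) hG.sum_X_mul_pderiv
    simp only [map_sum, map_mul, eval_X, nsmul_eq_mul, map_natCast] at this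
    rw [← this]
    exact Finset.sum_congr rfl fun i _ ↦ mul_comm _ _
  unfold jetP at h1 ⊢
  have hd : ∀ i, eval (l • c) (pderiv i G) = l ^ (k - 1) * eval c (pderiv i G) := fun i ↦
    eval_smul_of_isHomogeneous hG.pderiv l c
  simp only [hd, Pi.add_apply, Pi.smul_apply, smul_eq_mul]
  have : ∑ i, l ^ (k - 1) * eval c (pderiv i G) * (μ * t i + ν * c i) =
      l ^ (k - 1) * (μ * ∑ i, eval c (pderiv i G) * t i +
        ν * ∑ i, eval c (pderiv i G) * c i) := by
    rw [Finset.mul_sum, Finset.mul_sum, ← Finset.sum_add_distrib, Finset.mul_sum]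
    exact Finset.sum_congr rfl fun i _ ↦ by ring
  rw [this, h1, hE, h0]
  ring

end Fermat.Agent.S17.H230
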