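import Mathlib.Algebra.MvPolynomial.Degrees
import Mathlib.Algebra.MvPolynomial.Eval
import Mathlib.Algebra.Polynomial.AlgebraMap
import Mathlib.Algebra.Polynomial.Degree.Lemmas
import Mathlib.Algebra.BigOperators.Fin

/-!
# S17 / tower H, piece P1 (helper230): Kronecker substitution

`kron B : MvPolynomial (Fin n) R →ₐ[R] R[X]`, `X_i ↦ X ^ (B ^ i)`.  On polynomials all of whose
exponents are `< B` it preserves the family of coefficients (it only re-indexes it, injectively).
-/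

namespace Fermat.Agent.S17.H230

open MvPolynomial

/-- The exponent of the image of the monomial `m` under the Kronecker substitution. -/
def kronExp (B : ℕ) {n : ℕ} (m : Fin n →₀ ℕ) : ℕ := ∑ i : Fin n, m i * B ^ (i : ℕ)

lemma kronExp_add (B : ℕ) {n : ℕ} (m m' : Fin n →₀ ℕ) :
    kronExp B (m + m') = kronExp B m + kronExp B m' := by
  simp [kronExp, add_mul, Finset.sum_add_distrib]

lemma kronExp_zero (B : ℕ) {n : ℕ} : kronExp B (0 : Fin n →₀ ℕ) = 0 := by
  simp [kronExp]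

/-- Uniqueness of base `B` expansions. -/
lemma kronExp_fun_inj (B : ℕ) : ∀ {n : ℕ} (a b : Fin n → ℕ), (∀ i, a i < B) → (∀ i, b i < B) →
    ∑ i : Fin n, a i * B ^ (i : ℕ) = ∑ i : Fin n, b i * B ^ (i : ℕ) → a = b := by
  intro n
  induction n with
  | zero => intro a b _ _ _; funext i; exact i.elim0
  | succ n ih =>
    intro a b ha hb h
    have hB : 0 < B := lt_of_le_of_lt (Nat.zero_le _) (ha 0)
    rw [Fin.sum_univ_succ, Fin.sum_univ_succ] at h
    simp only [Fin.val_zero, pow_zero, mul_one, Fin.val_succ, pow_succ] at h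
    have e1 : ∀ c : Fin (n + 1) → ℕ, ∑ i : Fin n, c i.succ * (B ^ (i : ℕ) * B) =
        B * ∑ i : Fin n, c i.succ * B ^ (i : ℕ) := by
      intro c
      rw [Finset.mul_sum]
      refine Finset.sum_congr rfl fun i _ ↦ by ring
    rw [e1 a, e1 b] at h
    have h0 : a 0 = b 0 := by
      have := congrArg (· % B) h
      simpa [Nat.add_mul_mod_self_left, Nat.mod_eq_of_lt (ha 0), Nat.mod_eq_of_lt (hb 0)] using this
    have h1 : ∑ i : Fin n, a i.succ * B ^ (i : ℕ) = ∑ i : Fin n, b i.succ * B ^ (i : ℕ) := by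
      rw [h0] at h
      exact Nat.eq_of_mul_eq_mul_left hB (Nat.add_left_cancel h)
    have h2 := ih (fun i ↦ a i.succ) (fun i ↦ b i.succ) (fun i ↦ ha _) (fun i ↦ hb _) h1
    funext i
    refine Fin.cases h0 (fun j ↦ ?_) i
    exact congrFun h2 j

lemma kronExp_inj (B : ℕ) {n : ℕ} {m m' : Fin n →₀ ℕ} (hm : ∀ i, m i < B) (hm' : ∀ i, m' i < B)
    (h : kronExp B m = kronExp B m') : m = m' := by
  have := kronExp_fun_inj B (fun i ↦ m i) (fun i ↦ m' i) hm hm' h
  ext i
  exact congrFun this i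

variable (R : Type*) [CommRing R]

/-- The Kronecker substitution `X_i ↦ X ^ (B ^ i)`. -/
noncomputable def kron (B n : ℕ) : MvPolynomial (Fin n) R →ₐ[R] Polynomial R :=
  MvPolynomial.aeval fun i : Fin n ↦ (Polynomial.X : Polynomial R) ^ (B ^ (i : ℕ))

variable {R}

lemma kron_monomial (B : ℕ) {n : ℕ} (m : Fin n →₀ ℕ) (a : R) :
    kron R B n (monomial m a) = Polynomial.monomial (kronExp B m) a := by
  rw [kron, MvPolynomial.aeval_monomial, Finsupp.prod_fintype _ _ (fun i ↦ by simp)]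
  simp only [← pow_mul, Finset.prod_pow_eq_pow_sum]
  rw [← Polynomial.C_mul_X_pow_eq_monomial, Polynomial.algebraMap_apply,
    Algebra.algebraMap_self_apply, kronExp]
  congr 2
  exact Finset.sum_congr rfl fun i _ ↦ by ring

lemma kron_eq_sum (B : ℕ) {n : ℕ} (f : MvPolynomial (Fin n) R) :
    kron R B n f = ∑ m ∈ f.support, Polynomial.monomial (kronExp B m) (f.coeff m) := by
  conv_lhs => rw [f.as_sum, map_sum]
  exact Finset.sum_congr rfl fun m _ ↦ kron_monomial B m _

lemma coeff_kron_eq_sum (B : ℕ) {n : ℕ} (f : MvPolynomial (Fin n) R) (k : ℕ) :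
    (kron R B n f).coeff k = ∑ m ∈ f.support, if kronExp B m = k then f.coeff m else 0 := by
  rw [kron_eq_sum, Polynomial.finsetSum_coeff]
  exact Finset.sum_congr rfl fun m _ ↦ by rw [Polynomial.coeff_monomial]

/-- `f` has all exponents `< B`. -/
def ExpLT (B : ℕ) {n : ℕ} (f : MvPolynomial (Fin n) R) : Prop :=
  ∀ m ∈ f.support, ∀ i, m i < B

lemma coeff_kron_kronExp {B : ℕ} {n : ℕ} {f : MvPolynomial (Fin n) R} (hf : ExpLT B f)
    {m : Fin n →₀ ℕ} (hm : m ∈ f.support) :
    (kron R B n f).coeff (kronExp B m) = f.coeff m := by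
  rw [coeff_kron_eq_sum, Finset.sum_eq_single m]
  · simp
  · intro m' hm' hne
    rw [if_neg]
    exact fun h ↦ hne (kronExp_inj B (hf m' hm') (hf m hm) h)
  · intro h; exact absurd hm h

lemma exists_of_coeff_kron_ne_zero {B : ℕ} {n : ℕ} {f : MvPolynomial (Fin n) R} (hf : ExpLT B f)
    {k : ℕ} (hk : (kron R B n f).coeff k ≠ 0) :
    ∃ m ∈ f.support, kronExp B m = k ∧ (kron R B n f).coeff k = f.coeff m := by
  rw [coeff_kron_eq_sum] at hk
  obtain ⟨m, hm, hne⟩ := Finset.exists_ne_zero_of_sum_ne_zero hk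
  have hmk : kronExp B m = k := by
    by_contra h
    exact hne (if_neg h)
  exact ⟨m, hm, hmk, hmk ▸ coeff_kron_kronExp hf hm⟩

lemma kron_ne_zero {B : ℕ} {n : ℕ} {f : MvPolynomial (Fin n) R} (hf : ExpLT B f) (h0 : f ≠ 0) :
    kron R B n f ≠ 0 := by
  obtain ⟨m, hm⟩ := MvPolynomial.support_nonempty.mpr h0
  intro h
  have := coeff_kron_kronExp hf hm
  rw [h, Polynomial.coeff_zero] at this
  exact (MvPolynomial.mem_support_iff.mp hm) this.symm

lemma kronExp_lt {B : ℕ} {n : ℕ} {m : Fin n →₀ ℕ} (hm : ∀ i, m i < B) : kronExp B m < B ^ n := by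
  induction n with
  | zero => simp [kronExp]
  | succ n ih =>
    have hB : 0 < B := lt_of_le_of_lt (Nat.zero_le _) (hm 0)
    rw [kronExp, Fin.sum_univ_castSucc]
    simp only [Fin.val_castSucc, Fin.val_last]
    let m' : Fin n →₀ ℕ := Finsupp.equivFunOnFinite.symm fun i ↦ m i.castSucc
    have h1 : ∑ i : Fin n, m i.castSucc * B ^ (i : ℕ) < B ^ n := by
      have := ih (m := m') (fun i ↦ by simpa [m'] using hm i.castSucc)
      simpa [kronExp, m'] using this
    have h2 : m (Fin.last n) + 1 ≤ B := hm _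
    calc ∑ i : Fin n, m i.castSucc * B ^ (i : ℕ) + m (Fin.last n) * B ^ n
        < B ^ n + m (Fin.last n) * B ^ n := by omega
      _ = (m (Fin.last n) + 1) * B ^ n := by ring
      _ ≤ B * B ^ n := Nat.mul_le_mul_right _ h2
      _ = B ^ (n + 1) := by ring

lemma natDegree_kron_lt {B : ℕ} {n : ℕ} {f : MvPolynomial (Fin n) R} (hf : ExpLT B f)
    (h0 : f ≠ 0) : (kron R B n f).natDegree < B ^ n := by
  have hne := kron_ne_zero hf h0
  have hc : (kron R B n f).coeff (kron R B n f).natDegree ≠ 0 := by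
    rwa [Polynomial.coeff_natDegree, Ne, Polynomial.leadingCoeff_eq_zero]
  obtain ⟨m, hm, hmk, -⟩ := exists_of_coeff_kron_ne_zero hf hc
  rw [← hmk]
  exact kronExp_lt (hf m hm)

lemma expLT_of_degreeOf {B : ℕ} {n : ℕ} {f : MvPolynomial (Fin n) R}
    (h : ∀ i, f.degreeOf i < B) : ExpLT B f :=
  fun _ hm i ↦ lt_of_le_of_lt (MvPolynomial.monomial_le_degreeOf i hm) (h i)

lemma expLT_mul {B : ℕ} {n : ℕ} {f g : MvPolynomial (Fin n) R}
    (h : ∀ i, f.degreeOf i + g.degreeOf i < B) : ExpLT B (f * g) :=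
  expLT_of_degreeOf fun i ↦ lt_of_le_of_lt (MvPolynomial.degreeOf_mul_le i f g) (h i)

lemma expLT_left {B : ℕ} {n : ℕ} {f g : MvPolynomial (Fin n) R}
    (h : ∀ i, f.degreeOf i + g.degreeOf i < B) : ExpLT B f :=
  expLT_of_degreeOf fun i ↦ lt_of_le_of_lt (Nat.le_add_right _ _) (h i)

lemma expLT_right {B : ℕ} {n : ℕ} {f g : MvPolynomial (Fin n) R}
    (h : ∀ i, f.degreeOf i + g.degreeOf i < B) : ExpLT B g :=
  expLT_of_degreeOf fun i ↦ lt_of_le_of_lt (Nat.le_add_left _ _) (h i)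

end Fermat.Agent.S17.H230
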