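import Mathlib.NumberTheory.Height.MvPolynomial
import Mathlib.NumberTheory.Height.NumberField

/-!
# S17 / tower H, piece P1 (helper230): local-to-global comparison of heights

If two tuples `x`, `y` over a field with admissible absolute values satisfy, place by place,
`sup_i |x i|_v ≤ c * sup_j |y j|_v` (archimedean places) and
`sup_i |x i|_v ≤ sup_j |y j|_v` (nonarchimedean places), then
`mulHeight x ≤ c ^ totalWeight K * mulHeight y`.
-/

namespace Fermat.Agent.S17.H230

open Height AdmissibleAbsValues

variable {K : Type*} [Field K] [AdmissibleAbsValues K] {ι ι' : Type*} [Finite ι] [Finite ι']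

open Multiset in
/-- Local-to-global principle for upper bounds of heights. -/
theorem mulHeight_le_of_local {x : ι → K} {y : ι' → K} (hx : x ≠ 0) (hy : y ≠ 0) {c : ℝ}
    (hc : 0 ≤ c)
    (harch : ∀ v ∈ archAbsVal (K := K), ⨆ i, v (x i) ≤ c * ⨆ j, v (y j))
    (hna : ∀ v ∈ nonarchAbsVal (K := K), ⨆ i, v (x i) ≤ ⨆ j, v (y j)) :
    mulHeight x ≤ c ^ totalWeight K * mulHeight y := by
  rw [mulHeight_eq hx, mulHeight_eq hy, ← mul_assoc]
  gcongr
  · exact finprod_nonneg fun v ↦ Real.iSup_nonneg_of_nonnegHomClass v.val _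
  · refine mul_nonneg (pow_nonneg hc _) ?_
    exact prod_map_nonneg fun v _ ↦ Real.iSup_nonneg_of_nonnegHomClass v _
  · rw [← prod_replicate, totalWeight, ← map_const', ← prod_map_mul]
    exact prod_map_le_prod_map₀ _ _ (fun v _ ↦ Real.iSup_nonneg_of_nonnegHomClass v _)
      fun v hv ↦ harch v hv
  · exact finprod_le_finprod (by fun_prop (disch := assumption))
      (fun v ↦ Real.iSup_nonneg_of_nonnegHomClass v.val _) (by fun_prop (disch := assumption))
      fun v ↦ hna v.val v.prop

end Fermat.Agent.S17.H230
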