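import Fermat.Agent.Lib.RR.Riemann

/-!
# S17 / tower H (helper230): values of functions at places, projective points of tuples

For a function field `F / K` with `FF1 K F` (all places of degree one):

* `valAt v f : K` — the value of `f` at the place `v` (junk value `0` if `f` has a pole);
  additive and multiplicative on functions regular at `v`, `valAt v f = 0 ↔ f = 0 ∨ 0 < ord_v f`.
* `unif v` — a chosen uniformizer at `v`.
* `ptAt v e x : ι → K` — for a tuple `x : ι → F` all of whose entries have order `≥ e` at `v`,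
  the vector of values of `x i * unif v ^ (-e)`: a representative of the projective point
  `(x_i)(v)`.  `dot_ptAt`: `∑ a_i (ptAt v e x)_i` is the value of `(∑ a_i x_i) * unif v ^ (-e)`,
  hence vanishes iff `∑ a_i x_i` is zero or has order `> e`; `ptAt_mul`: the point of the product
  tuple `(x_i y_j)` is the tensor product of the points.
-/

set_option autoImplicit false
set_option linter.unusedSectionVars false

noncomputable section

open AlgebraicCurve

namespace Fermat.Agent.S17.H230

open Fermat.Agent.Lib.RR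

variable {K F : Type*} [Field K] [Field F] [Algebra K F] [FF1 K F]

/-! ### The value of a function at a place -/

theorem algebraMap_residue_bijective (v : Place K F) :
    Function.Bijective (algebraMap K v.ResidueField) := by
  refine ⟨(algebraMap K v.ResidueField).injective, fun r ↦ ?_⟩
  have h1 : (1 : v.ResidueField) ≠ 0 := one_ne_zero
  have hspan := (finrank_eq_one_iff_of_nonzero' (1 : v.ResidueField) h1).mp (deg_eq_one v)
  obtain ⟨c, hc⟩ := hspan r
  exact ⟨c, by rw [← hc, Algebra.smul_def, mul_one]⟩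

/-- The residue field of a place is `K`. -/
def resEquiv (v : Place K F) : K ≃ₐ[K] v.ResidueField :=
  AlgEquiv.ofBijective (Algebra.ofId K v.ResidueField) (algebraMap_residue_bijective v)

/-- The value at `v`, on the valuation ring. -/
def valO (v : Place K F) : v.toValuationSubring →ₐ[K] K :=
  ((resEquiv v).symm : v.ResidueField →ₐ[K] K).comp
    (IsScalarTower.toAlgHom K v.toValuationSubring v.ResidueField)

theorem valO_apply (v : Place K F) (a : v.toValuationSubring) :
    valO v a = (resEquiv v).symm (IsLocalRing.residue v.toValuationSubring a) := rfl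

theorem valO_eq_zero_iff (v : Place K F) (a : v.toValuationSubring) :
    valO v a = 0 ↔ (a : F) = 0 ∨ 0 < v.ord (a : F) := by
  rw [← mem_maximalIdeal_iff, ← IsLocalRing.residue_eq_zero_iff, valO_apply]
  exact map_eq_zero_iff _ (resEquiv v).symm.injective

open Classical in
/-- The value of `f` at the place `v` (junk value `0` if `f` has a pole at `v`). -/
def valAt (v : Place K F) (f : F) : K :=
  if h : f ∈ v.toValuationSubring then valO v ⟨f, h⟩ else 0

theorem valAt_of_mem (v : Place K F) {f : F} (h : f ∈ v.toValuationSubring) :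
    valAt v f = valO v ⟨f, h⟩ := dif_pos h

/-- `f` is regular at `v`. -/
def RegAt (v : Place K F) (f : F) : Prop := f ∈ v.toValuationSubring

theorem regAt_iff (v : Place K F) (f : F) : RegAt v f ↔ 0 ≤ v.ord f := mem_iff_ord_nonneg v f

theorem regAt_zero (v : Place K F) : RegAt v (0 : F) := zero_mem _

theorem regAt_one (v : Place K F) : RegAt v (1 : F) := one_mem _

theorem regAt_algebraMap (v : Place K F) (c : K) : RegAt v (algebraMap K F c) :=
  v.algebraMap_mem' c

theorem RegAt.add {v : Place K F} {f g : F} (hf : RegAt v f) (hg : RegAt v g) :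
    RegAt v (f + g) := add_mem hf hg

theorem RegAt.mul {v : Place K F} {f g : F} (hf : RegAt v f) (hg : RegAt v g) :
    RegAt v (f * g) := mul_mem hf hg

theorem RegAt.smul {v : Place K F} {f : F} (c : K) (hf : RegAt v f) : RegAt v (c • f) := by
  rw [Algebra.smul_def]
  exact (regAt_algebraMap v c).mul hf

theorem RegAt.sum {v : Place K F} {ι : Type*} (s : Finset ι) {f : ι → F}
    (hf : ∀ i ∈ s, RegAt v (f i)) : RegAt v (∑ i ∈ s, f i) := sum_mem hf

theorem RegAt.prod {v : Place K F} {ι : Type*} (s : Finset ι) {f : ι → F}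
    (hf : ∀ i ∈ s, RegAt v (f i)) : RegAt v (∏ i ∈ s, f i) := prod_mem hf

@[simp] theorem valAt_zero (v : Place K F) : valAt v (0 : F) = 0 := by
  rw [valAt_of_mem v (regAt_zero v)]
  exact map_zero (valO v)

@[simp] theorem valAt_one (v : Place K F) : valAt v (1 : F) = 1 := by
  rw [valAt_of_mem v (regAt_one v)]
  exact map_one (valO v)

@[simp] theorem valAt_algebraMap (v : Place K F) (c : K) : valAt v (algebraMap K F c) = c := by
  rw [valAt_of_mem v (regAt_algebraMap v c)]
  exact (valO v).commutes c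

theorem valAt_add {v : Place K F} {f g : F} (hf : RegAt v f) (hg : RegAt v g) :
    valAt v (f + g) = valAt v f + valAt v g := by
  rw [valAt_of_mem v hf, valAt_of_mem v hg, valAt_of_mem v (hf.add hg), ← map_add]
  rfl

theorem valAt_mul {v : Place K F} {f g : F} (hf : RegAt v f) (hg : RegAt v g) :
    valAt v (f * g) = valAt v f * valAt v g := by
  rw [valAt_of_mem v hf, valAt_of_mem v hg, valAt_of_mem v (hf.mul hg), ← map_mul]
  rfl

theorem valAt_smul {v : Place K F} (c : K) {f : F} (hf : RegAt v f) :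
    valAt v (c • f) = c * valAt v f := by
  rw [Algebra.smul_def, valAt_mul (regAt_algebraMap v c) hf, valAt_algebraMap]

theorem valAt_sum {v : Place K F} {ι : Type*} (s : Finset ι) {f : ι → F}
    (hf : ∀ i ∈ s, RegAt v (f i)) : valAt v (∑ i ∈ s, f i) = ∑ i ∈ s, valAt v (f i) := by
  classical
  induction s using Finset.induction_on with
  | empty => simp
  | insert a s ha ih =>
    have h1 : ∀ i ∈ s, RegAt v (f i) := fun i hi ↦ hf i (Finset.mem_insert_of_mem hi)
    rw [Finset.sum_insert ha, Finset.sum_insert ha,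
      valAt_add (hf a (Finset.mem_insert_self a s)) (RegAt.sum s h1), ih h1]

theorem valAt_prod {v : Place K F} {ι : Type*} (s : Finset ι) {f : ι → F}
    (hf : ∀ i ∈ s, RegAt v (f i)) : valAt v (∏ i ∈ s, f i) = ∏ i ∈ s, valAt v (f i) := by
  classical
  induction s using Finset.induction_on with
  | empty => simp
  | insert a s ha ih =>
    have h1 : ∀ i ∈ s, RegAt v (f i) := fun i hi ↦ hf i (Finset.mem_insert_of_mem hi)
    rw [Finset.prod_insert ha, Finset.prod_insert ha,
      valAt_mul (hf a (Finset.mem_insert_self a s)) (RegAt.prod s h1), ih h1]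

theorem valAt_eq_zero_iff {v : Place K F} {f : F} (hf : RegAt v f) :
    valAt v f = 0 ↔ f = 0 ∨ 0 < v.ord f := by
  rw [valAt_of_mem v hf, valO_eq_zero_iff]

theorem valAt_ne_zero {v : Place K F} {f : F} (hf0 : f ≠ 0) (h : v.ord f = 0) :
    valAt v f ≠ 0 := by
  have hf : RegAt v f := (regAt_iff v f).mpr h.ge
  rw [Ne, valAt_eq_zero_iff hf]
  rintro (h1 | h1)
  · exact hf0 h1
  · omega

/-! ### Uniformizers -/

/-- A chosen uniformizer at `v`. -/
def unif (v : Place K F) : F := Classical.choose (exists_ord_eq_one v)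

theorem ord_unif (v : Place K F) : v.ord (unif v) = 1 := Classical.choose_spec (exists_ord_eq_one v)

theorem unif_ne_zero (v : Place K F) : unif v ≠ 0 :=
  ne_zero_of_ord_ne_zero v (by rw [ord_unif]; exact one_ne_zero)

theorem ord_unif_zpow (v : Place K F) (n : ℤ) : v.ord (unif v ^ n) = n := by
  rw [v.ord_zpow, ord_unif, mul_one]

theorem ord_mul_unif_zpow (v : Place K F) {f : F} (hf : f ≠ 0) (n : ℤ) :
    v.ord (f * unif v ^ n) = v.ord f + n := by
  rw [v.ord_mul hf (zpow_ne_zero _ (unif_ne_zero v)), ord_unif_zpow]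

/-! ### Projective points of tuples of functions -/

variable {ι ι' : Type*}

/-- All entries of `x` have order `≥ e` at `v` (or vanish). -/
def OrdGE (v : Place K F) (e : ℤ) (x : ι → F) : Prop := ∀ i, x i = 0 ∨ e ≤ v.ord (x i)

theorem regAt_mul_unif {v : Place K F} {e : ℤ} {f : F} (hf : f = 0 ∨ e ≤ v.ord f) :
    RegAt v (f * unif v ^ (-e)) := by
  rcases eq_or_ne f 0 with rfl | hf0
  · simpa using regAt_zero v
  · rw [regAt_iff, ord_mul_unif_zpow v hf0]
    have := hf.resolve_left hf0
    omega

theorem regAt_normAt {v : Place K F} {e : ℤ} {x : ι → F} (hx : OrdGE v e x) (i : ι) :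
    RegAt v (x i * unif v ^ (-e)) := regAt_mul_unif (hx i)

/-- A representative of the projective point `(x_i)(v)`: the values of `x i * unif v ^ (-e)`. -/
def ptAt (v : Place K F) (e : ℤ) (x : ι → F) : ι → K := fun i ↦ valAt v (x i * unif v ^ (-e))

theorem ptAt_apply (v : Place K F) (e : ℤ) (x : ι → F) (i : ι) :
    ptAt v e x i = valAt v (x i * unif v ^ (-e)) := rfl

/-- The entry of `ptAt` at an index where the minimal order `e` is attained is nonzero. -/
theorem ptAt_ne_zero_at {v : Place K F} {e : ℤ} {x : ι → F} {i : ι} (hi0 : x i ≠ 0)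
    (hi : v.ord (x i) = e) : ptAt v e x i ≠ 0 := by
  rw [ptAt_apply]
  refine valAt_ne_zero (mul_ne_zero hi0 (zpow_ne_zero _ (unif_ne_zero v))) ?_
  rw [ord_mul_unif_zpow v hi0, hi]
  omega

theorem ptAt_ne_zero {v : Place K F} {e : ℤ} {x : ι → F}
    (h : ∃ i, x i ≠ 0 ∧ v.ord (x i) = e) : ptAt v e x ≠ 0 := by
  obtain ⟨i, hi0, hi⟩ := h
  intro h0
  exact ptAt_ne_zero_at hi0 hi (congrFun h0 i)

theorem ptAt_eq_zero_of_lt {v : Place K F} {e : ℤ} {x : ι → F} {i : ι}
    (hi : x i = 0 ∨ e < v.ord (x i)) : ptAt v e x i = 0 := by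
  rcases eq_or_ne (x i) 0 with h0 | h0
  · simp [ptAt_apply, h0]
  · have hreg : RegAt v (x i * unif v ^ (-e)) :=
      regAt_mul_unif (Or.inr (hi.resolve_left h0).le)
    rw [ptAt_apply, valAt_eq_zero_iff hreg]
    right
    rw [ord_mul_unif_zpow v h0]
    have := hi.resolve_left h0
    omega

/-- The order condition for linear combinations. -/
theorem ordGE_sum [Fintype ι] {v : Place K F} {e : ℤ} {x : ι → F} (hx : OrdGE v e x)
    (a : ι → K) : (∑ i, a i • x i) = 0 ∨ e ≤ v.ord (∑ i, a i • x i) := by
  by_cases h0 : (∑ i, a i • x i) = 0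
  · exact Or.inl h0
  right
  have hreg : RegAt v ((∑ i, a i • x i) * unif v ^ (-e)) := by
    rw [Finset.sum_mul]
    refine RegAt.sum _ fun i _ ↦ ?_
    rw [smul_mul_assoc]
    exact RegAt.smul _ (regAt_normAt hx i)
  rw [regAt_iff, ord_mul_unif_zpow v h0] at hreg
  omega

/-- **Evaluation of linear forms**: `⟨a, ptAt v e x⟩` is the value at `v` of
`(∑ a_i x_i) * unif v ^ (-e)`. -/
theorem dot_ptAt [Fintype ι] {v : Place K F} {e : ℤ} {x : ι → F} (hx : OrdGE v e x)
    (a : ι → K) :
    ∑ i, a i * ptAt v e x i = valAt v ((∑ i, a i • x i) * unif v ^ (-e)) := by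
  rw [Finset.sum_mul, valAt_sum]
  · refine Finset.sum_congr rfl fun i _ ↦ ?_
    rw [smul_mul_assoc, valAt_smul _ (regAt_normAt hx i), ptAt_apply]
  · intro i _
    rw [smul_mul_assoc]
    exact RegAt.smul _ (regAt_normAt hx i)

/-- A linear form vanishes at the point `ptAt v e x` iff the corresponding function
`∑ a_i x_i` vanishes to order `> e` at `v`. -/
theorem dot_ptAt_eq_zero_iff [Fintype ι] {v : Place K F} {e : ℤ} {x : ι → F}
    (hx : OrdGE v e x) (a : ι → K) :
    ∑ i, a i * ptAt v e x i = 0 ↔ (∑ i, a i • x i) = 0 ∨ e < v.ord (∑ i, a i • x i) := by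
  rw [dot_ptAt hx]
  rcases eq_or_ne (∑ i, a i • x i) 0 with h0 | h0
  · simp [h0]
  rw [valAt_eq_zero_iff (regAt_mul_unif (ordGE_sum hx a)), ord_mul_unif_zpow v h0]
  simp only [mul_eq_zero, h0, false_or, zpow_ne_zero _ (unif_ne_zero v), or_false]
  constructor <;> intro h <;> omega

/-- **Multiplicativity**: the point of the product tuple is the tensor product of the points. -/
theorem ptAt_mul {v : Place K F} {e e' : ℤ} {x : ι → F} {y : ι' → F} (hx : OrdGE v e x)
    (hy : OrdGE v e' y) (i : ι) (j : ι') :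
    ptAt v (e + e') (fun p : ι × ι' ↦ x p.1 * y p.2) (i, j) = ptAt v e x i * ptAt v e' y j := by
  simp only [ptAt_apply]
  rw [← valAt_mul (regAt_normAt hx i) (regAt_normAt hy j)]
  congr 1
  rw [neg_add, zpow_add₀ (unif_ne_zero v)]
  ring

theorem ordGE_mul {v : Place K F} {e e' : ℤ} {x : ι → F} {y : ι' → F} (hx : OrdGE v e x)
    (hy : OrdGE v e' y) : OrdGE v (e + e') (fun p : ι × ι' ↦ x p.1 * y p.2) := by
  intro p
  rcases eq_or_ne (x p.1) 0 with h1 | h1
  · left; simp [h1]
  rcases eq_or_ne (y p.2) 0 with h2 | h2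
  · left; simp [h2]
  right
  rw [v.ord_mul h1 h2]
  have := (hx p.1).resolve_left h1
  have := (hy p.2).resolve_left h2
  omega

/-- Multiplicativity of the value of a product of two functions of orders `≥ e`, `≥ e'`. -/
theorem valAt_mul_unif {v : Place K F} {e e' : ℤ} {f g : F} (hf : f = 0 ∨ e ≤ v.ord f)
    (hg : g = 0 ∨ e' ≤ v.ord g) :
    valAt v (f * g * unif v ^ (-(e + e'))) =
      valAt v (f * unif v ^ (-e)) * valAt v (g * unif v ^ (-e')) := by
  rw [← valAt_mul (regAt_mul_unif hf) (regAt_mul_unif hg)]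
  congr 1
  rw [neg_add, zpow_add₀ (unif_ne_zero v)]
  ring

end Fermat.Agent.S17.H230
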