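import Fermat.Agent.S17.H230.PlaceEval

/-!
# S17 / tower H (helper230): the point of a place under the map given by `L(D)`

For a divisor `D` and a tuple `x : ι → F` of elements of `L(D)`:

* `ptD D x v : ι → K := ptAt v (-D v) x` — a representative of the projective point `φ_x(v)`;
* `dot_ptD_eq_zero_iff` : `⟨a, ptD D x v⟩ = 0 ↔ ∑ a_i x_i ∈ L(D - v)` (**hyperplanes through the
  point = sections vanishing at the place**; this is `pt_spec` of the wall interface);
* `ptD_ne_zero` : nonzero as soon as `v` is not a base point of the span of `x`;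
* `ptD_mul` : `ptD (D + D') (x_i y_j) v = ptD D x v ⊗ ptD D' y v`;
* `ptD_structure` : if `x_i y_j = ∑_l c i j l • z_l` with `z ⊂ L(D + D')` then
  `(ptD D x v)_i (ptD D' y v)_j = ∑_l c i j l * (ptD (D + D') z v)_l`
  (the Segre product of the points in degrees `D`, `D'` is a FIXED linear image of the point in
  degree `D + D'`; conversely if the products span).
-/

set_option autoImplicit false
set_option linter.unusedSectionVars false

noncomputable section

open AlgebraicCurve

namespace Fermat.Agent.S17.H230

open Fermat.Agent.Lib.RR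

variable {K F : Type*} [Field K] [Field F] [Algebra K F] [FF1 K F] {ι ι' κ : Type*}

theorem ordGE_of_mem_L {D : Divisor K F} {x : ι → F} (hx : ∀ i, x i ∈ riemannRochSpace D)
    (v : Place K F) : OrdGE v (-D v) x := fun i ↦ (mem_L_iff.mp (hx i)) v

/-- The point of the place `v` under the map defined by the tuple `x ⊂ L(D)`. -/
def ptD (D : Divisor K F) (x : ι → F) (v : Place K F) : ι → K := ptAt v (-D v) x

theorem ptD_apply (D : Divisor K F) (x : ι → F) (v : Place K F) (i : ι) :
    ptD D x v i = valAt v (x i * unif v ^ (D v)) := by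
  rw [ptD, ptAt_apply, neg_neg]

/-- The value of a linear form at the point `ptD D x v`. -/
theorem dot_ptD [Fintype ι] {D : Divisor K F} {x : ι → F}
    (hx : ∀ i, x i ∈ riemannRochSpace D) (v : Place K F) (a : ι → K) :
    ∑ i, a i * ptD D x v i = valAt v ((∑ i, a i • x i) * unif v ^ (D v)) := by
  rw [ptD, dot_ptAt (ordGE_of_mem_L hx v), neg_neg]

theorem mem_L_sub_prim_iff {D : Divisor K F} {f : F} (hf : f ∈ riemannRochSpace D)
    (v : Place K F) :
    f ∈ riemannRochSpace (D - prim v) ↔ f = 0 ∨ -D v < v.ord f := by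
  classical
  rw [mem_L_iff]
  constructor
  · intro h
    rcases h v with h0 | h1
    · exact Or.inl h0
    · right
      have : (D - prim v) v = D v - 1 := by simp [prim]
      rw [this] at h1
      omega
  · rintro (h0 | h1) w
    · exact Or.inl h0
    · rcases eq_or_ne f 0 with h0 | h0
      · exact Or.inl h0
      right
      by_cases hw : w = v
      · subst hw
        have : (D - prim w) w = D w - 1 := by simp [prim]
        rw [this]
        omega
      · have h2 := ((mem_L_iff.mp hf) w).resolve_left h0
        have : (D - prim v) w = D w := by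
          simp [prim, Ne.symm hw]
        rw [this]
        exact h2

/-- **Hyperplanes through the point of `v` are the sections vanishing at `v`.** -/
theorem dot_ptD_eq_zero_iff [Fintype ι] {D : Divisor K F} {x : ι → F}
    (hx : ∀ i, x i ∈ riemannRochSpace D) (v : Place K F) (a : ι → K) :
    ∑ i, a i * ptD D x v i = 0 ↔ (∑ i, a i • x i) ∈ riemannRochSpace (D - prim v) := by
  have hf : (∑ i, a i • x i) ∈ riemannRochSpace D :=
    Submodule.sum_mem _ fun i _ ↦ Submodule.smul_mem _ _ (hx i)
  rw [ptD, dot_ptAt_eq_zero_iff (ordGE_of_mem_L hx v), mem_L_sub_prim_iff hf]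

/-- The point is nonzero if some entry has exact order `-D v`. -/
theorem ptD_ne_zero {D : Divisor K F} {x : ι → F} {v : Place K F}
    (h : ∃ i, x i ≠ 0 ∧ v.ord (x i) = -D v) : ptD D x v ≠ 0 := ptAt_ne_zero h

/-- If the span of `x` contains a function of exact order `-D v` (`v` is not a base point), then
the point is nonzero. -/
theorem ptD_ne_zero_of_span [Fintype ι] {D : Divisor K F} {x : ι → F}
    (hx : ∀ i, x i ∈ riemannRochSpace D) {v : Place K F} {f : F}
    (hf : f ∈ Submodule.span K (Set.range x)) (hf0 : f ≠ 0) (hord : v.ord f = -D v) :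
    ptD D x v ≠ 0 := by
  obtain ⟨a, rfl⟩ := (Submodule.mem_span_range_iff_exists_fun K).mp hf
  intro h0
  have h1 : ∑ i, a i * ptD D x v i = 0 := by simp [h0]
  rw [ptD, dot_ptAt_eq_zero_iff (ordGE_of_mem_L hx v)] at h1
  rcases h1 with h1 | h1
  · exact hf0 h1
  · omega

/-- **Multiplicativity** of the points. -/
theorem ptD_mul {D D' : Divisor K F} {x : ι → F} {y : ι' → F}
    (hx : ∀ i, x i ∈ riemannRochSpace D) (hy : ∀ j, y j ∈ riemannRochSpace D')
    (v : Place K F) (i : ι) (j : ι') :
    ptD (D + D') (fun p : ι × ι' ↦ x p.1 * y p.2) v (i, j) = ptD D x v i * ptD D' y v j := by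
  have := ptAt_mul (ordGE_of_mem_L hx v) (ordGE_of_mem_L hy v) i j
  rw [ptD, ptD, ptD]
  rw [← this]
  congr 1
  simp only [Finsupp.coe_add, Pi.add_apply]
  ring

/-- **Structure constants**: a relation `x_i y_j = ∑_l c_l z_l` between functions gives the same
relation between the coordinates of the points. -/
theorem ptD_structure [Fintype κ] {D D' : Divisor K F} {x : ι → F} {y : ι' → F} {z : κ → F}
    (hx : ∀ i, x i ∈ riemannRochSpace D) (hy : ∀ j, y j ∈ riemannRochSpace D')
    (hz : ∀ l, z l ∈ riemannRochSpace (D + D')) (v : Place K F) (i : ι) (j : ι') (c : κ → K)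
    (h : x i * y j = ∑ l, c l • z l) :
    ptD D x v i * ptD D' y v j = ∑ l, c l * ptD (D + D') z v l := by
  rw [dot_ptD hz, ← h, ← ptD_mul hx hy v i j, ptD_apply]

/-- Linear relations: if `w_k = ∑_l c k l • z_l` (all in `L(D)`) then the points satisfy the same
relations. -/
theorem ptD_linear [Fintype κ] {D : Divisor K F} {w : ι → F} {z : κ → F}
    (hz : ∀ l, z l ∈ riemannRochSpace D) (v : Place K F) (i : ι) (c : κ → K)
    (h : w i = ∑ l, c l • z l) :
    ptD D w v i = ∑ l, c l * ptD D z v l := by
  rw [dot_ptD hz, ← h, ptD_apply]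

end Fermat.Agent.S17.H230
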