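import Fermat.Agent.S17.H17.HGauss
import Fermat.Agent.S17.H290.GaussAsm

/-!
# S17 / tower H, sub-project GAUSS: the leaf (PRINC)  (helper230)

`princ : WeilStatement E → ProjNormalStatement E → HContract.PRINCStatement E`:
the pairing `(div f . P)` with a principal divisor is bounded off its support.

Proof.  Choose `k` large and `g₂ ≠ 0` in `L(km∞ - (f)_∞)`; then `g₂` and `g₁ = f g₂` lie in
`L(km∞)`, so `g_i = G_i(x)` for forms `G_i` of degree `k` (projective normality).  Weil's machine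
for the one-element families `{G_i}` gives `(Z_i . P) = k h(P) + O(1)` off `Z_i = div g_i + km∞`
(the height of a `1`-tuple vanishes), and `div f = Z₁ - Z₂`.  The finitely many places of
`supp Z₁ ∪ supp Z₂` are absorbed by the constant.
-/

set_option autoImplicit false

noncomputable section

open AlgebraicCurve MvPolynomial

namespace Fermat.Agent.S17.H230

open Fermat.Agent.Lib.RR Fermat.Agent.S17.HWall Fermat.Agent.S17.HContract Fermat.Agent.S17.Wall
open Fermat.Agent.S17.H290

/-- The absolute height of a `1`-tuple vanishes. -/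
theorem ht_unit_eq_zero {A : Type*} [Field A] [CharZero A] (z : A) :
    Fermat.Agent.S17.H380.absLogHeight (fun _ : Unit => z) = 0 := by
  by_cases hz : ∀ _ : Unit, IsIntegral ℚ z
  · have := Fermat.Agent.S17.H380.tupleField_numberField (fun _ : Unit => z) hz
    rw [Fermat.Agent.S17.H380.absLogHeight_def _ hz, Height.logHeight_eq_zero_of_subsingleton,
      mul_zero]
  · exact Fermat.Agent.S17.H380.absLogHeight_of_not_isIntegral _ hz

variable {K F : Type*} [Field K] [CharZero K] [Field F] [Algebra K F] [FF1 K F]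

omit [CharZero K] [FF1 K F] in
/-- the pole divisor of a principal divisor -/
theorem exists_pole_divisor (Df : Divisor K F) :
    ∃ Dp : Divisor K F, ∀ v, Dp v = max 0 (-Df v) :=
  ⟨Df.mapRange (fun n => max 0 (-n)) (by simp), fun v => by simp [Finsupp.mapRange_apply]⟩

omit [CharZero K] in
/-- a common denominator in `L(km∞)` -/
theorem exists_denominator (E : EmbData K F) (f : F) (hf : f ≠ 0) :
    ∃ (k : ℕ) (g : F), g ≠ 0 ∧ g ∈ riemannRochSpace ((k * E.m) • prim E.vinf) ∧
      f * g ∈ riemannRochSpace ((k * E.m) • prim E.vinf) := by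
  obtain ⟨Dp, hDp⟩ := exists_pole_divisor (divOf (K := K) f hf)
  set k : ℕ := genusR K F + (Divisor.degree Dp).toNat with hk
  have hm : 1 ≤ E.m := by have := E.hm; omega
  have hkm : k ≤ k * E.m := Nat.le_mul_of_pos_right k hm
  have hdeg : Divisor.degree ((k * E.m) • prim E.vinf - Dp) = (k * E.m : ℕ) - Divisor.degree Dp := by
    rw [map_sub, map_nsmul, degree_prim']
    simp
  have hell := riemann_inequality ((k * E.m) • prim E.vinf - Dp)
  have hpos : 0 < ell ((k * E.m) • prim E.vinf - Dp) := by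
    have h1 : Divisor.degree Dp ≤ ((Divisor.degree Dp).toNat : ℤ) := Int.self_le_toNat _
    have h2 : ((k : ℕ) : ℤ) ≤ ((k * E.m : ℕ) : ℤ) := by exact_mod_cast hkm
    have h3 : ((k : ℕ) : ℤ) = genusR K F + ((Divisor.degree Dp).toNat : ℤ) := by
      rw [hk]; push_cast; ring
    rw [hdeg] at hell
    have : (0 : ℤ) < ell ((k * E.m) • prim E.vinf - Dp) := by omega
    exact_mod_cast this
  unfold ell at hpos
  obtain ⟨g, hg0⟩ := Module.finrank_pos_iff_exists_ne_zero.mp hpos
  have hg0' : (g : F) ≠ 0 := fun h => hg0 (Subtype.ext h)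
  have hgm := mem_L_iff.mp g.2
  refine ⟨k, g, hg0', ?_, ?_⟩
  · rw [mem_L_iff]
    intro v
    right
    have h1 := (hgm v).resolve_left hg0'
    rw [Finsupp.sub_apply, hDp v] at h1
    have : (0 : ℤ) ≤ max 0 (-(divOf (K := K) f hf) v) := le_max_left _ _
    omega
  · rw [mem_L_iff]
    intro v
    right
    have h1 := (hgm v).resolve_left hg0'
    rw [Finsupp.sub_apply, hDp v, divOf_apply] at h1
    rw [v.ord_mul hf hg0']
    have : -v.ord f ≤ max 0 (-v.ord f) := le_max_right _ _
    omega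

omit [CharZero K] in
theorem zdiv_apply_of_ne (E : EmbData K F) (d : ℕ) (G : MvPolynomial (Fin (E.r + 1)) K)
    (h : aeval E.x G ≠ 0) (v : Place K F) :
    zdiv E d G v = v.ord (aeval E.x G) + ((d * E.m) • prim E.vinf : Divisor K F) v := by
  unfold zdiv
  rw [dif_neg h, Finsupp.add_apply, divOf_apply]

omit [CharZero K] in
theorem zdiv_nonneg_of_mem (E : EmbData K F) (d : ℕ) (G : MvPolynomial (Fin (E.r + 1)) K)
    (h : aeval E.x G ≠ 0) (hm : aeval E.x G ∈ riemannRochSpace ((d * E.m) • prim E.vinf)) :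
    0 ≤ zdiv E d G := by
  rw [Finsupp.le_def]
  intro v
  rw [zdiv_apply_of_ne E d G h v, Finsupp.coe_zero, Pi.zero_apply]
  have := ((mem_L_iff.mp hm) v).resolve_left h
  omega

omit [CharZero K] in
theorem exactZero_single (E : EmbData K F) (d : ℕ) (G : MvPolynomial (Fin (E.r + 1)) K)
    (h : aeval E.x G ≠ 0) : ExactZero E d (fun _ : Unit => G) (zdiv E d G) :=
  ⟨fun _ _ => le_rfl, fun _ => ⟨(), h, rfl⟩⟩

/-- Weil's machine for ONE form: `(Z_G . P) = k h(P) + O(1)` off `Z_G`. -/
theorem pairPt_zdiv_bound (E : EmbData K F) (hW : WeilStatement E) (d : ℕ)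
    (G : MvPolynomial (Fin (E.r + 1)) K) (hG : G.IsHomogeneous d) (h : aeval E.x G ≠ 0)
    (hm : aeval E.x G ∈ riemannRochSpace ((d * E.m) • prim E.vinf)) :
    ∃ C : ℝ, ∀ P : Place K F, zdiv E d G P = 0 →
      |pairPt E (zdiv E d G) P - (d : ℝ) * ht (E.pt P)| ≤ C := by
  obtain ⟨C, hC⟩ := hW Unit d (fun _ => G) (zdiv E d G) (fun _ => hG)
    (zdiv_nonneg_of_mem E d G h hm) (exactZero_single E d G h)
  refine ⟨C, fun P hP => ?_⟩
  have := hC P hP
  have h0 : ht (fun _ : Unit => eval (E.pt P) G) = 0 := ht_unit_eq_zero _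
  rw [h0, zero_sub] at this
  rwa [show pairPt E (zdiv E d G) P - (d : ℝ) * ht (E.pt P) =
    -((d : ℝ) * ht (E.pt P)) + pairPt E (zdiv E d G) P by ring]

/-- **(PRINC)** from Weil's machine and projective normality. -/
theorem princ (E : EmbData K F) (hW : WeilStatement E) (hPN : ProjNormalStatement E) :
    PRINCStatement E := by
  classical
  intro f Df hf hDf
  obtain ⟨k, g, hg0, hgm, hfgm⟩ := exists_denominator E f hf
  obtain ⟨G₂, hG₂, hG₂e⟩ := hPN k g hgm
  obtain ⟨G₁, hG₁, hG₁e⟩ := hPN k (f * g) hfgm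
  have hfg0 : f * g ≠ 0 := mul_ne_zero hf hg0
  have h1 : aeval E.x G₁ ≠ 0 := by rw [hG₁e]; exact hfg0
  have h2 : aeval E.x G₂ ≠ 0 := by rw [hG₂e]; exact hg0
  obtain ⟨C₁, hC₁⟩ := pairPt_zdiv_bound E hW k G₁ hG₁ h1 (by rw [hG₁e]; exact hfgm)
  obtain ⟨C₂, hC₂⟩ := pairPt_zdiv_bound E hW k G₂ hG₂ h2 (by rw [hG₂e]; exact hgm)
  have hD : Df = zdiv E k G₁ - zdiv E k G₂ := by
    ext v
    rw [Finsupp.sub_apply, zdiv_apply_of_ne E k G₁ h1, zdiv_apply_of_ne E k G₂ h2, hDf v,
      hG₁e, hG₂e, v.ord_mul hf hg0]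
    ring
  set S : Finset (Place K F) := (zdiv E k G₁).support ∪ (zdiv E k G₂).support with hS
  refine ⟨|C₁| + |C₂| + ∑ Q ∈ S, |pairPt E Df Q|, fun P _ => ?_⟩
  have hsum : 0 ≤ ∑ Q ∈ S, |pairPt E Df Q| := Finset.sum_nonneg fun _ _ => abs_nonneg _
  by_cases hPS : P ∈ S
  · have := Finset.single_le_sum (f := fun Q => |pairPt E Df Q|) (fun _ _ => abs_nonneg _) hPS
    have := abs_nonneg C₁
    have := abs_nonneg C₂
    linarith
  · rw [hS, Finset.mem_union, not_or, Finsupp.notMem_support_iff, Finsupp.notMem_support_iff]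
      at hPS
    have e1 := hC₁ P hPS.1
    have e2 := hC₂ P hPS.2
    have e : pairPt E Df P =
        (pairPt E (zdiv E k G₁) P - (k : ℝ) * ht (E.pt P)) -
          (pairPt E (zdiv E k G₂) P - (k : ℝ) * ht (E.pt P)) := by
      rw [hD, pairPt_sub]
      ring
    rw [e]
    have := abs_sub (pairPt E (zdiv E k G₁) P - (k : ℝ) * ht (E.pt P))
      (pairPt E (zdiv E k G₂) P - (k : ℝ) * ht (E.pt P))
    have := le_abs_self C₁
    have := le_abs_self C₂
    linarith

end Fermat.Agent.S17.H230
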